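import Mathlib.NumberTheory.NumberField.Discriminant.Different
import Mathlib.RingTheory.Ideal.Norm.RelNorm
import Mathlib.FieldTheory.Normal.Basic
import Mathlib.FieldTheory.PrimitiveElement
import Mathlib.FieldTheory.IsAlgClosed.AlgebraicClosure

/-!
# The compositum with a fixed Galois field

For Galois fields `K`, `k` there is a field `M` with `M/K` and `M/k` Galois, of degree at most the
product of the degrees, with `|d_M| ≤ C |d_K|^[k:ℚ]`, where `C` depends on `k` and `[K:ℚ]` only:
the different of `M/K` divides `F'(θ)`, `F` the minimal polynomial of an integral generator `θ`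
of `k`.
-/

set_option autoImplicit false
set_option linter.style.haveILetI false

noncomputable section

open NumberField Module Polynomial
open scoped Classical

namespace FA.HeckeBS

universe u v

variable (k : Type v) [Field k] [NumberField k]

/-- An integral generator. -/
theorem exists_integral_generator :
    ∃ θ : 𝓞 k, Algebra.adjoin ℚ {(θ : k)} = ⊤ := by
  obtain ⟨α, hα⟩ := Field.exists_primitive_element ℚ k
  have hα' : Algebra.adjoin ℚ ({α} : Set k) = ⊤ := by
    rw [← IntermediateField.adjoin_simple_toSubalgebra_of_isAlgebraic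
      (Algebra.IsAlgebraic.isAlgebraic α), hα, IntermediateField.top_toSubalgebra]
  obtain ⟨y, hy, hint⟩ :=
    ((IsFractionRing.isAlgebraic_iff ℤ ℚ k).2 (Algebra.IsAlgebraic.isAlgebraic α)).exists_integral_multiple
  refine ⟨⟨y • α, hint⟩, top_le_iff.1 (hα'.ge.trans (Algebra.adjoin_le ?_))⟩
  rw [Set.singleton_subset_iff, SetLike.mem_coe]
  have hy' : (y : ℚ) ≠ 0 := Int.cast_ne_zero.2 hy
  have hmem : (y • α : k) ∈ Algebra.adjoin ℚ ({y • α} : Set k) := Algebra.self_mem_adjoin_singleton _ _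
  have h := Subalgebra.smul_mem _ hmem (y : ℚ)⁻¹
  rwa [← Int.cast_smul_eq_zsmul ℚ y α, smul_smul, inv_mul_cancel₀ hy', one_smul,
    Int.cast_smul_eq_zsmul ℚ y α] at h

variable {k} in
/-- The generator is a simple root of its minimal polynomial. -/
theorem aeval_derivative_minpoly_ne_zero (θ : 𝓞 k) :
    aeval θ (derivative (minpoly ℤ θ)) ≠ 0 := by
  intro h
  have hint : IsIntegral ℤ (θ : k) := RingOfIntegers.isIntegral_coe θ
  have hθ : minpoly ℤ θ = minpoly ℤ (θ : k) :=
    (minpoly.algebraMap_eq (FaithfulSMul.algebraMap_injective (𝓞 k) k) θ).symm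
  have h' := congrArg (algebraMap (𝓞 k) k) h
  rw [← aeval_algebraMap_apply, map_zero, hθ] at h'
  have hsep : (minpoly ℚ (θ : k)).Separable := Algebra.IsSeparable.isSeparable ℚ _
  refine hsep.aeval_derivative_ne_zero (minpoly.aeval ℚ (θ : k)) ?_
  rwa [minpoly.isIntegrallyClosed_eq_field_fractions' ℚ hint, derivative_map, aeval_map_algebraMap]

/-- The compositum of the images of two normal extensions. -/
theorem compositum_props {F E E' L : Type*} [Field F] [Field E] [Field E'] [Field L] [Algebra F E]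
    [Algebra F E'] [Algebra F L] [Normal F E] [Normal F E'] [FiniteDimensional F E]
    [FiniteDimensional F E'] (f : E →ₐ[F] L) (g : E' →ₐ[F] L) :
    Normal F ↥(f.fieldRange ⊔ g.fieldRange) ∧ FiniteDimensional F ↥(f.fieldRange ⊔ g.fieldRange) ∧
      finrank F ↥(f.fieldRange ⊔ g.fieldRange) ≤ finrank F E * finrank F E' ∧
      (f.fieldRange ⊔ g.fieldRange).toSubalgebra = f.range ⊔ g.range := by
  let ef : E ≃ₐ[F] f.fieldRange := AlgEquiv.ofInjectiveField f
  let eg : E' ≃ₐ[F] g.fieldRange := AlgEquiv.ofInjectiveField g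
  haveI : Normal F f.fieldRange := Normal.of_algEquiv ef
  haveI : Normal F g.fieldRange := Normal.of_algEquiv eg
  haveI : FiniteDimensional F f.fieldRange := LinearEquiv.finiteDimensional ef.toLinearEquiv
  haveI : FiniteDimensional F g.fieldRange := LinearEquiv.finiteDimensional eg.toLinearEquiv
  refine ⟨inferInstance, inferInstance, ?_, ?_⟩
  · rw [ef.toLinearEquiv.finrank_eq, eg.toLinearEquiv.finrank_eq]
    exact IntermediateField.finrank_sup_le _ _
  · exact IntermediateField.sup_toSubalgebra_of_left _ _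

variable [IsGalois ℚ k]

/-- **The compositum and its discriminant.** -/
theorem exists_compositum_bound (n : ℕ) :
    ∃ C : ℝ, 1 ≤ C ∧ ∀ (K : Type u) [Field K] [NumberField K] [IsGalois ℚ K], finrank ℚ K = n →
      ∃ (M : Type) (_ : Field M) (_ : NumberField M) (_ : Algebra K M) (_ : Algebra k M),
        IsGalois K M ∧ IsGalois k M ∧ finrank ℚ M ≤ n * finrank ℚ k ∧
          |((discr M : ℤ) : ℝ)| ≤ C * |((discr K : ℤ) : ℝ)| ^ finrank ℚ k := by
  obtain ⟨θ, hθ⟩ := exists_integral_generator k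
  set δ : 𝓞 k := aeval θ (derivative (minpoly ℤ θ))
  have hδ : δ ≠ 0 := aeval_derivative_minpoly_ne_zero θ
  have hA : 1 ≤ Ideal.absNorm (Ideal.span {δ}) :=
    Nat.one_le_iff_ne_zero.2 (by rwa [ne_eq, Ideal.absNorm_eq_zero_iff, Ideal.span_singleton_eq_bot])
  refine ⟨((Ideal.absNorm (Ideal.span {δ}) ^ n : ℕ) : ℝ),
    Nat.one_le_cast.2 (Nat.one_le_pow _ _ hA), fun K _ _ _ hn => ?_⟩
  let ιK : K →ₐ[ℚ] AlgebraicClosure ℚ := IsAlgClosed.lift
  let ιk : k →ₐ[ℚ] AlgebraicClosure ℚ := IsAlgClosed.lift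
  let eK : K ≃ₐ[ℚ] ιK.fieldRange := AlgEquiv.ofInjectiveField ιK
  let ek : k ≃ₐ[ℚ] ιk.fieldRange := AlgEquiv.ofInjectiveField ιk
  let M : IntermediateField ℚ (AlgebraicClosure ℚ) := ιK.fieldRange ⊔ ιk.fieldRange
  obtain ⟨hnorm, hfin, hrank, hsupeq⟩ := compositum_props ιK ιk
  haveI : FiniteDimensional ℚ M := hfin
  haveI : Normal ℚ M := hnorm
  haveI : NumberField M := NumberField.mk
  haveI : IsGalois ℚ M := IsGalois.mk
  let iK : K →ₐ[ℚ] M := (IntermediateField.inclusion le_sup_left).comp eK.toAlgHom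
  let ik : k →ₐ[ℚ] M := (IntermediateField.inclusion le_sup_right).comp ek.toAlgHom
  letI : Algebra K M := iK.toRingHom.toAlgebra
  letI : Algebra k M := ik.toRingHom.toAlgebra
  haveI : IsScalarTower ℚ K M := IsScalarTower.of_algebraMap_eq fun q => (iK.commutes q).symm
  haveI : IsScalarTower ℚ k M := IsScalarTower.of_algebraMap_eq fun q => (ik.commutes q).symm
  haveI : FiniteDimensional K M := Module.Finite.of_restrictScalars_finite ℚ K M
  haveI : FiniteDimensional k M := Module.Finite.of_restrictScalars_finite ℚ k M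
  haveI : IsGalois K M := IsGalois.tower_top_of_isGalois ℚ K M
  haveI : IsGalois k M := IsGalois.tower_top_of_isGalois ℚ k M
  have hdeg : finrank ℚ M ≤ n * finrank ℚ k := hn ▸ hrank
  have hKM : finrank K M ≤ finrank ℚ k := by
    have h := hdeg
    rw [← Module.finrank_mul_finrank ℚ K M, hn] at h
    exact Nat.le_of_mul_le_mul_left h (hn ▸ finrank_pos)
  have hkM : finrank k M ≤ n := by
    have h := hdeg
    rw [← Module.finrank_mul_finrank ℚ k M, mul_comm n] at h
    exact Nat.le_of_mul_le_mul_left h finrank_pos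
  -- `M = K(θ)`
  set y : 𝓞 M := algebraMap (𝓞 k) (𝓞 M) θ
  have hy : algebraMap (𝓞 M) M y = ik (θ : k) := (IsScalarTower.algebraMap_apply (𝓞 k) (𝓞 M) M θ).symm.trans
    (IsScalarTower.algebraMap_apply (𝓞 k) k M θ)
  have hadj : Algebra.adjoin K {algebraMap (𝓞 M) M y} = ⊤ := by
    set S := Algebra.adjoin K ({algebraMap (𝓞 M) M y} : Set M)
    let T : Subalgebra ℚ (AlgebraicClosure ℚ) := (S.restrictScalars ℚ).map M.val
    have hK : ιK.fieldRange.toSubalgebra ≤ T := by
      rintro _ ⟨a, rfl⟩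
      exact ⟨algebraMap K M a, S.algebraMap_mem a, rfl⟩
    have hk : ιk.fieldRange.toSubalgebra ≤ T := by
      rintro _ ⟨b, rfl⟩
      refine ⟨ik b, ?_, rfl⟩
      have hle : Algebra.adjoin ℚ {(θ : k)} ≤ (S.restrictScalars ℚ).comap ik :=
        Algebra.adjoin_le (Set.singleton_subset_iff.2 (show ik (θ : k) ∈ S from
          hy ▸ Algebra.self_mem_adjoin_singleton K _))
      exact hle (hθ ▸ Algebra.mem_top)
    have hsup : M.toSubalgebra ≤ T := by
      rw [show M = ιK.fieldRange ⊔ ιk.fieldRange from rfl, hsupeq]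
      exact sup_le hK hk
    refine eq_top_iff.2 fun z _ => ?_
    obtain ⟨w, hw, hwz⟩ := hsup z.2
    rwa [Subtype.ext hwz] at hw
  -- the different divides `F'(θ)`
  have hmem : algebraMap (𝓞 k) (𝓞 M) δ ∈ differentIdeal (𝓞 K) (𝓞 M) := by
    have h := aeval_derivative_mem_differentIdeal (𝓞 K) K M y hadj
    set F : (𝓞 K)[X] := (minpoly ℤ θ).map (algebraMap ℤ (𝓞 K))
    have hF : aeval y F = 0 := by
      rw [aeval_map_algebraMap, aeval_algebraMap_apply, minpoly.aeval, map_zero]
    obtain ⟨g, hg⟩ := minpoly.isIntegrallyClosed_dvd (Algebra.IsIntegral.isIntegral y) hF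
    have hF' : algebraMap (𝓞 k) (𝓞 M) δ = aeval y (derivative F) := by
      rw [derivative_map, aeval_map_algebraMap, aeval_algebraMap_apply]
    rw [hF', hg, derivative_mul, map_add, map_mul, map_mul, minpoly.aeval, zero_mul, add_zero]
    exact Ideal.mul_mem_right _ _ h
  have hdiv : Ideal.absNorm (differentIdeal (𝓞 K) (𝓞 M)) ≤ Ideal.absNorm (Ideal.span {δ}) ^ n := by
    have h1 : Ideal.absNorm (differentIdeal (𝓞 K) (𝓞 M)) ∣
        Ideal.absNorm ((Ideal.span {δ}).map (algebraMap (𝓞 k) (𝓞 M))) := by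
      refine Ideal.absNorm_dvd_absNorm_of_le ?_
      rw [Ideal.map_span, Set.image_singleton, Ideal.span_singleton_le_iff_mem]
      exact hmem
    rw [Ideal.absNorm_algebraMap, ← IsFractionRing.finrank_eq (𝓞 k) k (𝓞 M) M] at h1
    exact (Nat.le_of_dvd (pow_pos hA _) h1).trans (Nat.pow_le_pow_right hA hkM)
  refine ⟨M, inferInstance, inferInstance, inferInstance, inferInstance, inferInstance, inferInstance,
    hdeg, ?_⟩
  have hd := natAbs_discr_eq_absNorm_differentIdeal_mul_natAbs_discr_pow K (𝓞 K) M (𝓞 M)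
  have hcast : ∀ z : ℤ, |(z : ℝ)| = (z.natAbs : ℝ) := fun z => by
    rw [← Int.cast_abs, ← Int.natCast_natAbs, Int.cast_natCast]
  rw [hcast, hcast, ← Nat.cast_pow, ← Nat.cast_mul, Nat.cast_le, hd]
  exact Nat.mul_le_mul hdiv (Nat.pow_le_pow_right (Int.natAbs_pos.2 (discr_ne_zero K)) hKM)

end FA.HeckeBS
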