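import Fermat.Agent.HeckeBS.Quotient
import Fermat.Agent.HeckeBS.Compositum

/-!
# Brauer's lower bound

`h R ≥ c |d|^(1/2 - ε)` for the Galois fields of a fixed degree, `c` ineffective: either no such
field has a zero of `xiFun` near `1`, or one field `k` with a zero `ρ` transfers it to every
compositum `M` of `k` and `K`, and `M/K` brings the bound back to `K`.
-/

set_option autoImplicit false
set_option linter.style.haveILetI false

noncomputable section

open NumberField InfinitePlace Module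
open scoped Real Classical

namespace FA.HeckeBS

universe u

/-- `c(n)` in Hecke's bound. -/
def heckeConst (n : ℕ) : ℝ := Real.exp (-(π * Real.exp 1 * n)) / 2 ^ n

theorem heckeConst_pos (n : ℕ) : 0 < heckeConst n := by unfold heckeConst; positivity

theorem heckeConst_anti {m n : ℕ} (h : m ≤ n) : heckeConst n ≤ heckeConst m :=
  div_le_div₀ (Real.exp_pos _).le (Real.exp_le_exp.2 (neg_le_neg
    (mul_le_mul_of_nonneg_left (Nat.cast_le.2 h) (by positivity)))) (by positivity)
    (pow_le_pow_right₀ one_le_two h)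

theorem edgeConst_mono {b : ℝ} (hb : 1 < b) {m n : ℕ} (h : m ≤ n) :
    edgeConst m b ≤ edgeConst n b := by
  have h1 := Real.Gamma_pos_of_pos (show 0 < b / 2 by linarith)
  have h2 := Real.Gamma_pos_of_pos (show 0 < (b + 1) / 2 by linarith)
  have hE : 0 ≤ eulerConst b :=
    mul_nonneg zero_le_two (tsum_nonneg fun m => Real.rpow_nonneg (Nat.cast_nonneg _) _)
  refine mul_le_mul (pow_le_pow_right₀ (one_le_mul_of_one_le_of_one_le
    (le_add_of_nonneg_right (by positivity)) (le_add_of_nonneg_right (by positivity))) h)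
    (Real.exp_le_exp.2 ?_) (Real.exp_pos _).le (by positivity)
  exact mul_le_mul_of_nonneg_right (mul_le_mul_of_nonneg_left (Nat.cast_le.2 h) zero_le_two) hE

theorem one_le_absR (K : Type u) [Field K] [NumberField K] : 1 ≤ |((discr K : ℤ) : ℝ)| := by
  rw [← Int.cast_abs]
  exact_mod_cast Int.one_le_abs (discr_ne_zero K)

theorem polarR_le_hR (K : Type u) [Field K] [NumberField K] :
    polarR K ≤ 2 ^ finrank ℚ K * hR K := by
  have hw : (1 : ℝ) ≤ Units.torsionOrder K := Nat.one_le_cast.2 (Units.torsionOrder_pos K)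
  rw [hR_eq, ← mul_div_assoc, le_div_iff₀ (by positivity), mul_comm ((2 : ℝ) ^ finrank ℚ K)]
  exact mul_le_mul (le_mul_of_one_le_right (polarR_pos K).le hw)
    (pow_le_pow_right₀ one_le_two (places_le_finrank K)) (by positivity)
    (mul_nonneg (polarR_pos K).le (zero_le_one.trans hw))

theorem hR_le_polarR {N : ℕ} (M : Type u) [Field M] [NumberField M] (hN : finrank ℚ M ≤ N) :
    hR M ≤ (2 * (N : ℝ) ^ 2 + 1) * polarR M := by
  have h := FA.ConductorDiscr.torsionOrder_le M
  have h2 : (Units.torsionOrder M : ℝ) ≤ ((2 * finrank ℚ M ^ 2 : ℕ) : ℝ) := Nat.cast_le.2 h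
  push_cast at h2
  have hN' : (finrank ℚ M : ℝ) ≤ N := Nat.cast_le.2 hN
  have h3 : (Units.torsionOrder M : ℝ) ≤ 2 * (N : ℝ) ^ 2 + 1 := by
    nlinarith [(Nat.cast_nonneg (finrank ℚ M) : (0 : ℝ) ≤ _)]
  rw [hR_eq, mul_comm (2 * (N : ℝ) ^ 2 + 1)]
  exact (div_le_self (mul_nonneg (polarR_pos M).le (Nat.cast_nonneg _)) (one_le_pow₀ one_le_two)).trans
    (mul_le_mul_of_nonneg_left h3 (polarR_pos M).le)

/-- **Brauer's lower bound.** -/
theorem exists_hR_lower_galois (n : ℕ) {ε : ℝ} (hε : 0 < ε) :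
    ∃ c > 0, ∀ (K : Type u) [Field K] [NumberField K] [IsGalois ℚ K], finrank ℚ K = n →
      c * |((discr K : ℤ) : ℝ)| ^ (1 / 2 - ε) ≤ hR K := by
  set η := min (ε / (n + 1)) (1 / 2) with hη
  have hη0 : 0 < η := lt_min (div_pos hε (by positivity)) (by norm_num)
  have hη2 : η ≤ 1 / 2 := min_le_right _ _
  have hηn : η * (n + 1) ≤ ε := (le_div_iff₀ (by positivity)).1 (min_le_left _ _)
  have hn0 : (0 : ℝ) ≤ n := Nat.cast_nonneg n
  by_cases hA : ∀ (K : Type u) [Field K] [NumberField K] [IsGalois ℚ K], finrank ℚ K = n →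
      ∀ y ∈ Set.Icc (1 - η) 1, xiFun K (y : ℂ) ≠ 0
  · refine ⟨(1 - η) * η * heckeConst n,
      mul_pos (mul_pos (by linarith) hη0) (heckeConst_pos n), fun K _ _ _ hK => ?_⟩
    have h := hR_lower_of_no_zero K (x := 1 - η) (by linarith) (by linarith) (hA K hK)
    rw [hK, sub_sub_cancel] at h
    refine le_trans (mul_le_mul_of_nonneg_left (Real.rpow_le_rpow_of_exponent_le (one_le_absR K) ?_)
      (mul_nonneg (mul_nonneg (by linarith) hη0.le) (heckeConst_pos n).le)) h
    nlinarith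
  · push Not at hA
    obtain ⟨k, ik1, ik2, ik3, hk, ρ, ⟨hρ0, hρ1⟩, hz⟩ := hA
    have hρlt : ρ < 1 := lt_of_le_of_ne hρ1 fun e => by
      rw [e, Complex.ofReal_one, xiFun_one] at hz
      exact Complex.ofReal_ne_zero.2 (polarR_pos k).ne' hz
    set N := n * n
    obtain ⟨C, hC, hcomp⟩ := exists_compositum_bound.{u} k n
    set b := 1 + η with hb
    set W : ℝ := 2 * (N : ℝ) ^ 2 + 1
    set E := edgeConst N b
    have hE : 0 < E := edgeConst_pos N (by linarith)
    set c₁ := ρ * (1 - ρ) * heckeConst N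
    have hc₁ : 0 < c₁ := mul_pos (mul_pos (by linarith) (by linarith)) (heckeConst_pos N)
    refine ⟨c₁ * C ^ (-((b - ρ) / 2)) / (2 ^ n * W * E), by positivity, fun K _ _ _ hK => ?_⟩
    obtain ⟨M, iM1, iM2, iM3, iM4, iM5, iM6, hdeg, hd⟩ := hcomp K hK
    rw [hk] at hdeg hd
    have hzM : xiR M ρ = 0 := by
      have h := xiFun_eq_zero_of_galois k M hz
      rw [xiFun_ofReal] at h
      exact_mod_cast h
    have hlow : c₁ * |((discr M : ℤ) : ℝ)| ^ (ρ / 2) ≤ W * polarR M := by
      refine le_trans ?_ (((hR_lower M (by linarith) hρlt hzM.ge).trans (hR_le_polarR M hdeg)))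
      exact mul_le_mul_of_nonneg_right (mul_le_mul_of_nonneg_left (heckeConst_anti hdeg)
        (mul_nonneg (by linarith) (by linarith))) (Real.rpow_nonneg (abs_nonneg _) _)
    have hup := polarR_le_mul K M (b := b) (by linarith) (by linarith)
    set dK := |((discr K : ℤ) : ℝ)| with hdK
    set dM := |((discr M : ℤ) : ℝ)| with hdM
    have hK1 : 1 ≤ dK := one_le_absR K
    have hM1 : 1 ≤ dM := one_le_absR M
    have hK0 : 0 < dK := zero_lt_one.trans_le hK1
    have hM0 : 0 < dM := zero_lt_one.trans_le hM1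
    have hq : 0 ≤ (dM / dK) ^ (b / 2) := Real.rpow_nonneg (by positivity) _
    -- `c₁ dM^(ρ/2) ≤ W (dM/dK)^(b/2) E 2^n hR`
    have h1 : c₁ * dM ^ (ρ / 2) ≤ W * ((dM / dK) ^ (b / 2) * E * (2 ^ n * hR K)) := by
      refine hlow.trans (mul_le_mul_of_nonneg_left (hup.trans ?_) (by positivity))
      have hh : polarR K ≤ 2 ^ n * hR K := hK ▸ polarR_le_hR K
      exact mul_le_mul (mul_le_mul_of_nonneg_left (edgeConst_mono (by linarith) hdeg) hq) hh
        (polarR_pos K).le (mul_nonneg hq hE.le)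
    have h2 : c₁ * (dK ^ (b / 2) * dM ^ (-((b - ρ) / 2))) ≤ 2 ^ n * W * E * hR K := by
      rw [Real.div_rpow hM0.le hK0.le] at h1
      have hMb : 0 < dM ^ (b / 2) := Real.rpow_pos_of_pos hM0 _
      have hKb : 0 < dK ^ (b / 2) := Real.rpow_pos_of_pos hK0 _
      rw [show -((b - ρ) / 2) = ρ / 2 - b / 2 by ring, Real.rpow_sub hM0]
      have h3 := mul_le_mul_of_nonneg_right h1 (div_nonneg hKb.le hMb.le)
      refine le_of_eq_of_le ?_ (h3.trans_eq ?_) <;> field_simp
    have h4 : C ^ (-((b - ρ) / 2)) * dK ^ (1 / 2 - ε) ≤ dK ^ (b / 2) * dM ^ (-((b - ρ) / 2)) := by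
      have h5 : (C * dK ^ (n : ℝ)) ^ (-((b - ρ) / 2)) ≤ dM ^ (-((b - ρ) / 2)) :=
        Real.rpow_le_rpow_of_nonpos hM0 (by rwa [Real.rpow_natCast]) (by linarith)
      refine le_trans ?_ (mul_le_mul_of_nonneg_left h5 (Real.rpow_nonneg hK0.le _))
      rw [Real.mul_rpow (by linarith) (Real.rpow_nonneg hK0.le _), ← Real.rpow_mul hK0.le,
        mul_left_comm, ← Real.rpow_add hK0]
      refine mul_le_mul_of_nonneg_left (Real.rpow_le_rpow_of_exponent_le hK1 ?_)
        (Real.rpow_nonneg (by linarith) _)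
      nlinarith
    rw [div_mul_eq_mul_div, div_le_iff₀ (by positivity), mul_assoc c₁, mul_comm (hR K)]
    exact (mul_le_mul_of_nonneg_left h4 hc₁.le).trans h2

end FA.HeckeBS
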