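import Mathlib

/-!
# Elementary bounds for Gamma factors on vertical lines

`|Γ s| ≤ Γ (re s)` and `|Γ (1 + i u)| ≥ exp (-π |u|)`.
-/

set_option autoImplicit false
set_option linter.style.haveILetI false

noncomputable section

open Complex MeasureTheory Set
open scoped Real ComplexConjugate

namespace FA.HeckeBS

theorem norm_Gamma_le_re {s : ℂ} (hs : 0 < s.re) : ‖Complex.Gamma s‖ ≤ Real.Gamma s.re := by
  rw [Complex.Gamma_eq_integral hs, Real.Gamma_eq_integral hs, Complex.GammaIntegral]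
  refine (norm_integral_le_integral_norm _).trans (le_of_eq ?_)
  refine setIntegral_congr_fun measurableSet_Ioi fun x hx => ?_
  show ‖_‖ = _
  rw [norm_mul, norm_real, Real.norm_of_nonneg (Real.exp_pos _).le,
    norm_cpow_eq_rpow_re_of_pos (mem_Ioi.1 hx), sub_re, one_re]

theorem norm_Gammaℝ_le {s : ℂ} (hs : 0 < s.re) :
    ‖Gammaℝ s‖ ≤ π ^ (-s.re / 2) * Real.Gamma (s.re / 2) := by
  rw [Gammaℝ_def, norm_mul, norm_cpow_eq_rpow_re_of_pos Real.pi_pos, div_ofNat_re, neg_re]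
  refine mul_le_mul_of_nonneg_left ?_ (Real.rpow_nonneg Real.pi_pos.le _)
  rw [← div_ofNat_re s 2]
  exact norm_Gamma_le_re (by rw [div_ofNat_re]; linarith)

theorem abs_sinh_le (x : ℝ) : |Real.sinh x| ≤ |x| * Real.exp |x| := by
  rw [Real.abs_sinh]
  have h : ∀ y : ℝ, 0 ≤ y → Real.sinh y ≤ y * Real.exp y := fun y _ => by
    rw [Real.sinh_eq]
    have h1 := Real.add_one_le_exp (-(2 * y))
    have h2 : Real.exp (-y) = Real.exp y * Real.exp (-(2 * y)) := by
      rw [← Real.exp_add]; ring_nf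
    rw [h2]
    have h3 := mul_le_mul_of_nonneg_left h1 (Real.exp_pos y).le
    nlinarith
  exact h _ (abs_nonneg x)

/-- **The lower bound on the line `re = 1`.** -/
theorem norm_Gamma_one_add_ge (u : ℝ) : Real.exp (-(π * |u|)) ≤ ‖Complex.Gamma (1 + u * I)‖ := by
  rcases eq_or_ne u 0 with rfl | hu
  · simp
  have hz : (u : ℂ) * I ≠ 0 := mul_ne_zero (ofReal_ne_zero.2 hu) I_ne_zero
  have hconj : ‖Complex.Gamma (1 - u * I)‖ = ‖Complex.Gamma (1 + u * I)‖ := by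
    rw [show (1 : ℂ) - u * I = conj (1 + (u : ℂ) * I) by simp [sub_eq_add_neg],
      Complex.Gamma_conj, Complex.norm_conj]
  have h := congrArg (fun z => ‖(u : ℂ) * I * z‖) (Complex.Gamma_mul_Gamma_one_sub ((u : ℂ) * I))
  simp only [← mul_assoc] at h
  rw [← Complex.Gamma_add_one _ hz, add_comm, norm_mul, hconj,
    show (π : ℂ) * (u : ℂ) * I = ((π * u : ℝ) : ℂ) * I by push_cast; ring,
    Complex.sin_mul_I, norm_mul, norm_mul, norm_div, norm_mul, norm_I, mul_one, mul_one, norm_real,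
    norm_real, ← ofReal_sinh, norm_real, Real.norm_eq_abs, Real.norm_eq_abs, Real.norm_eq_abs,
    abs_of_pos Real.pi_pos] at h
  have hs0 : 0 < |Real.sinh (π * u)| :=
    abs_pos.2 (Real.sinh_eq_zero.not.2 (mul_ne_zero Real.pi_ne_zero hu))
  have hle := abs_sinh_le (π * u)
  rw [abs_mul, abs_of_pos Real.pi_pos] at hle
  have hsq : Real.exp (-(π * |u|)) ≤
      ‖Complex.Gamma (1 + u * I)‖ * ‖Complex.Gamma (1 + u * I)‖ := by
    rw [h, mul_div_assoc', le_div_iff₀ hs0, Real.exp_neg, inv_mul_le_iff₀ (Real.exp_pos _)]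
    linarith
  have hg : 0 ≤ ‖Complex.Gamma (1 + u * I)‖ := norm_nonneg _
  rcases le_or_gt 1 ‖Complex.Gamma (1 + u * I)‖ with h1 | h1
  · exact (Real.exp_le_one_iff.2 (neg_nonpos.2 (by positivity))).trans h1
  · exact hsq.trans (mul_le_of_le_one_left hg h1.le)

theorem norm_Gammaℝ_two_add_ge (t : ℝ) :
    π⁻¹ * Real.exp (-(π * |t|)) ≤ ‖Gammaℝ (2 + t * I)‖ := by
  rw [Gammaℝ_def, norm_mul, norm_cpow_eq_rpow_re_of_pos Real.pi_pos,
    show (2 + (t : ℂ) * I) / 2 = 1 + ((t / 2 : ℝ) : ℂ) * I by push_cast; ring,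
    show (-(2 + (t : ℂ) * I) / 2).re = -1 by simp, Real.rpow_neg_one]
  refine mul_le_mul_of_nonneg_left (le_trans ?_ (norm_Gamma_one_add_ge (t / 2)))
    (inv_nonneg.2 Real.pi_pos.le)
  refine Real.exp_le_exp.2 (neg_le_neg (mul_le_mul_of_nonneg_left ?_ Real.pi_pos.le))
  rw [abs_div, abs_two]
  linarith [abs_nonneg t]

theorem norm_Gammaℂ_two_add_ge (t : ℝ) :
    (2 * π ^ 2)⁻¹ * Real.exp (-(π * |t|)) ≤ ‖Gammaℂ (2 + t * I)‖ := by
  have hne : (1 : ℂ) + t * I ≠ 0 := fun h => by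
    have := congrArg Complex.re h; simp at this
  rw [Gammaℂ_def, show (2 : ℂ) * π = ((2 * π : ℝ) : ℂ) by push_cast; ring, norm_mul, norm_mul,
    norm_cpow_eq_rpow_re_of_pos (by positivity),
    show ((2 : ℂ) + t * I) = (1 + t * I) + 1 by ring, Complex.Gamma_add_one _ hne, norm_mul,
    show (-((1 : ℂ) + t * I + 1)).re = ((-2 : ℤ) : ℝ) by simp; norm_num, Real.rpow_intCast]
  have h1 : (1 : ℝ) ≤ ‖(1 : ℂ) + t * I‖ := by
    have := Complex.abs_re_le_norm ((1 : ℂ) + t * I); simpa using this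
  have h2 := norm_Gamma_one_add_ge t
  have h3 : Real.exp (-(π * |t|)) ≤ ‖(1 : ℂ) + t * I‖ * ‖Complex.Gamma (1 + t * I)‖ :=
    h2.trans (le_mul_of_one_le_left (norm_nonneg _) h1)
  have h4 : (2 * π ^ 2)⁻¹ = ‖(2 : ℂ)‖ * (2 * π) ^ (-2 : ℤ) := by
    rw [zpow_neg, RCLike.norm_ofNat]
    have := Real.pi_ne_zero
    field_simp
  rw [h4]
  exact mul_le_mul_of_nonneg_left h3 (by positivity)

end FA.HeckeBS
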