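import Fermat.Agent.AbelianZeta.Euler

/-!
# Bounds for Dedekind zeta functions in terms of the degree

`exp (-n P σ) ≤ |ζ_K s| ≤ exp (n P σ)` for `σ = re s > 1`, where `P σ = 2 ∑ m^(-σ)`.
-/

set_option autoImplicit false
set_option linter.style.haveILetI false

noncomputable section

open NumberField IsDedekindDomain Module Filter Ideal
open scoped nonZeroDivisors Classical Topology

namespace FA.HeckeBS

/-- `2 ∑ m^(-σ)`. -/
def eulerConst (σ : ℝ) : ℝ := 2 * ∑' m : ℕ, (m : ℝ) ^ (-σ)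

variable {K : Type*} [Field K] [NumberField K]

theorem card_over_le (T : Finset (HeightOneSpectrum (𝓞 K))) (f : HeightOneSpectrum (𝓞 K) → ℕ)
    (hp : ∀ v, (f v).Prime) (hmem : ∀ v, (f v : 𝓞 K) ∈ v.asIdeal) (m : ℕ) :
    (T.filter fun v => f v = m).card ≤ finrank ℚ K := by
  set S := T.filter fun v => f v = m
  rcases S.eq_empty_or_nonempty with hS | ⟨v₀, hv₀⟩
  · rw [hS]; simp
  have hm : m.Prime := (Finset.mem_filter.mp hv₀).2 ▸ hp v₀
  have hinj : Set.InjOn (fun v : HeightOneSpectrum (𝓞 K) => v.asIdeal) S :=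
    fun v _ w _ h => HeightOneSpectrum.ext h
  have hdiv : ∏ v ∈ S, v.asIdeal ∣ Ideal.span {(m : 𝓞 K)} := by
    rw [← Finset.prod_image (f := fun I : Ideal (𝓞 K) => I) hinj]
    refine Finset.prod_primes_dvd _ ?_ ?_
    · intro I hI
      obtain ⟨v, -, rfl⟩ := Finset.mem_image.mp hI
      exact v.prime
    · intro I hI
      obtain ⟨v, hv, rfl⟩ := Finset.mem_image.mp hI
      rw [Ideal.dvd_span_singleton, ← (Finset.mem_filter.mp hv).2]
      exact hmem v
  have h3 : ∏ v ∈ S, absNorm v.asIdeal ∣ m ^ finrank ℚ K := by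
    have := map_dvd absNorm hdiv
    rwa [map_prod, Ideal.absNorm_span_singleton, show (m : 𝓞 K) = algebraMap ℤ (𝓞 K) m by simp,
      Algebra.norm_algebraMap, Int.natAbs_pow, Int.natAbs_natCast, RingOfIntegers.rank] at this
  have h4 : m ^ S.card ≤ ∏ v ∈ S, absNorm v.asIdeal := Finset.pow_card_le_prod _ _ _ fun v hv => by
    obtain ⟨k, -, hk⟩ := (Nat.dvd_prime_pow hm).mp ((Finset.dvd_prod_of_mem _ hv).trans h3)
    rw [hk]
    refine le_self_pow hm.one_le fun h0 => ?_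
    have := FA.Ext.two_le_absNorm v
    rw [hk, h0, pow_zero] at this
    omega
  exact (Nat.pow_le_pow_iff_right hm.one_lt).mp (h4.trans (Nat.le_of_dvd (pow_pos hm.pos _) h3))

theorem sum_prime_rpow_le (T : Finset (HeightOneSpectrum (𝓞 K))) {σ : ℝ} (hσ : 1 < σ) :
    2 * ∑ v ∈ T, ((absNorm v.asIdeal : ℕ) : ℝ) ^ (-σ) ≤ finrank ℚ K * eulerConst σ := by
  choose f hfp hf using FA.Ext.exists_rat_prime_mem (K := K)
  have hle : ∀ v, ((absNorm v.asIdeal : ℕ) : ℝ) ^ (-σ) ≤ (f v : ℝ) ^ (-σ) := fun v => by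
    refine Real.rpow_le_rpow_of_nonpos (Nat.cast_pos.2 (hfp v).pos) ?_ (by linarith)
    have hdvd : absNorm v.asIdeal ∣ f v ^ finrank ℚ K := by
      have := map_dvd absNorm (Ideal.dvd_span_singleton.mpr (hf v))
      rwa [Ideal.absNorm_span_singleton, show (f v : 𝓞 K) = algebraMap ℤ (𝓞 K) (f v) by simp,
        Algebra.norm_algebraMap, Int.natAbs_pow, Int.natAbs_natCast, RingOfIntegers.rank] at this
    obtain ⟨k, -, hk⟩ := (Nat.dvd_prime_pow (hfp v)).mp hdvd
    rw [Nat.cast_le, hk]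
    refine le_self_pow (hfp v).one_le fun h0 => ?_
    have := FA.Ext.two_le_absNorm v
    rw [hk, h0, pow_zero] at this
    omega
  have hsum : Summable fun m : ℕ => (m : ℝ) ^ (-σ) := Real.summable_nat_rpow.2 (by linarith)
  refine (mul_le_mul_of_nonneg_left (Finset.sum_le_sum fun v _ => hle v) zero_le_two).trans ?_
  rw [eulerConst, mul_left_comm ((finrank ℚ K : ℕ) : ℝ)]
  refine mul_le_mul_of_nonneg_left ?_ zero_le_two
  rw [← Finset.sum_fiberwise_of_maps_to (g := f) (t := T.image f)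
    fun i hi => Finset.mem_image_of_mem f hi]
  calc ∑ m ∈ T.image f, ∑ v ∈ T.filter (fun v => f v = m), (f v : ℝ) ^ (-σ)
      ≤ ∑ m ∈ T.image f, (finrank ℚ K : ℝ) * (m : ℝ) ^ (-σ) := Finset.sum_le_sum fun m _ => by
        rw [Finset.sum_congr rfl fun v hv => by rw [(Finset.mem_filter.mp hv).2],
          Finset.sum_const, nsmul_eq_mul]
        exact mul_le_mul_of_nonneg_right (by exact_mod_cast card_over_le T f hfp hf m)
          (Real.rpow_nonneg (Nat.cast_nonneg _) _)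
    _ ≤ _ := by
        rw [← Finset.mul_sum]
        exact mul_le_mul_of_nonneg_left
          (hsum.sum_le_tsum _ fun m _ => Real.rpow_nonneg (Nat.cast_nonneg _) _) (Nat.cast_nonneg _)

/-- **The two bounds.** -/
theorem norm_dedekindZeta_bounds {s : ℂ} (hs : 1 < s.re) :
    Real.exp (-(finrank ℚ K * eulerConst s.re)) ≤ ‖dedekindZeta K s‖ ∧
      ‖dedekindZeta K s‖ ≤ Real.exp (finrank ℚ K * eulerConst s.re) := by
  have hlim : Tendsto (fun T : Finset (HeightOneSpectrum (𝓞 K)) =>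
      ‖∏ v ∈ T, (1 - ((absNorm v.asIdeal : ℕ) : ℂ) ^ (-s))⁻¹‖) atTop (𝓝 ‖dedekindZeta K s‖) :=
    (FA.AbelianZeta.hasProd_primes (F := K) hs).norm
  set x : HeightOneSpectrum (𝓞 K) → ℝ := fun v => ((absNorm v.asIdeal : ℕ) : ℝ) ^ (-s.re)
  have hx : ∀ v, ‖((absNorm v.asIdeal : ℕ) : ℂ) ^ (-s)‖ = x v := fun v => by
    rw [Complex.norm_natCast_cpow_of_pos (by have := FA.Ext.two_le_absNorm v; omega), Complex.neg_re]
  have hxb : ∀ v, 0 ≤ x v ∧ x v ≤ 1 / 2 := fun v =>
    ⟨Real.rpow_nonneg (Nat.cast_nonneg _) _, FA.Ext.zN_primeIdeal_le_half hs.le v⟩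
  have hkey : ∀ v, Real.exp (-(2 * x v)) ≤ ‖(1 - ((absNorm v.asIdeal : ℕ) : ℂ) ^ (-s))⁻¹‖ ∧
      ‖(1 - ((absNorm v.asIdeal : ℕ) : ℂ) ^ (-s))⁻¹‖ ≤ Real.exp (2 * x v) := fun v => by
    obtain ⟨h0, h1⟩ := hxb v
    set z := ((absNorm v.asIdeal : ℕ) : ℂ) ^ (-s)
    have hlow : 1 - x v ≤ ‖1 - z‖ := by
      have := norm_sub_norm_le (1 : ℂ) z
      rwa [norm_one, hx] at this
    have hup : ‖1 - z‖ ≤ 1 + x v := by
      have := norm_sub_le (1 : ℂ) z
      rwa [norm_one, hx] at this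
    have he := Real.add_one_le_exp (2 * x v)
    have hpos : 0 < ‖1 - z‖ := by linarith
    rw [norm_inv, Real.exp_neg]
    constructor
    · exact inv_anti₀ hpos (by linarith)
    · refine inv_le_of_inv_le₀ (Real.exp_pos _) (le_trans ?_ hlow)
      rw [inv_le_iff_one_le_mul₀ (Real.exp_pos _)]
      nlinarith
  have hT : ∀ T : Finset (HeightOneSpectrum (𝓞 K)), 2 * ∑ v ∈ T, x v ≤ finrank ℚ K * eulerConst s.re :=
    fun T => sum_prime_rpow_le T hs
  constructor
  · refine ge_of_tendsto hlim (Eventually.of_forall fun T => ?_)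
    rw [norm_prod]
    refine le_trans (Real.exp_le_exp.2 (neg_le_neg (hT T))) ?_
    rw [Finset.mul_sum, ← Finset.sum_neg_distrib, Real.exp_sum]
    exact Finset.prod_le_prod (fun v _ => (Real.exp_pos _).le) fun v _ => (hkey v).1
  · refine le_of_tendsto hlim (Eventually.of_forall fun T => ?_)
    rw [norm_prod]
    refine le_trans ?_ (Real.exp_le_exp.2 (hT T))
    rw [Finset.mul_sum, Real.exp_sum]
    exact Finset.prod_le_prod (fun v _ => norm_nonneg _) fun v _ => (hkey v).2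

end FA.HeckeBS
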