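import Fermat.Agent.HeckeBS.Orbit
import Fermat.Agent.HeckeBS.EulerBound
import Fermat.Agent.ConductorDiscr.AbelianBounds

/-!
# Bounds for `h R`

`h R ≤ C |d|^(1/2 + ε)` for every field of degree `n`, and `h R ≥ c x (1 - x) |d|^(x/2)` if the
completed zeta function is non-negative at `x ∈ (0, 1)`, in particular if it has no zero in `[x, 1]`.
-/

set_option autoImplicit false
set_option linter.style.haveILetI false

noncomputable section

open NumberField InfinitePlace Module
open scoped Real Classical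

namespace FA.HeckeBS

open FA.HeckeFE

universe u

variable (K : Type u) [Field K] [NumberField K]

/-- `h R`. -/
def hR : ℝ := classNumber K * Units.regulator K

theorem hR_pos : 0 < hR K :=
  mul_pos (Nat.cast_pos.2 (classNumber_pos K)) (Units.regulator_pos K)

theorem hR_eq : hR K =
    polarR K * Units.torsionOrder K / 2 ^ (nrRealPlaces K + nrComplexPlaces K) := by
  have : (Units.torsionOrder K : ℝ) ≠ 0 := Nat.cast_ne_zero.2 (Units.torsionOrder_pos K).ne'
  rw [polarR_eq, hR]; field_simp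

theorem places_le_finrank : nrRealPlaces K + nrComplexPlaces K ≤ finrank ℚ K := by
  have := card_add_two_mul_card_eq_rank K; omega

/-- **The lower bound from a non-negative value.** -/
theorem hR_lower {x : ℝ} (hx0 : 0 < x) (hx1 : x < 1) (h : 0 ≤ xiR K x) :
    x * (1 - x) * (Real.exp (-(π * Real.exp 1 * finrank ℚ K)) / 2 ^ finrank ℚ K) *
      |((discr K : ℤ) : ℝ)| ^ (x / 2) ≤ hR K := by
  have hw : (0 : ℝ) < Units.torsionOrder K := Nat.cast_pos.2 (Units.torsionOrder_pos K)
  set E := Real.exp (-(π * Real.exp 1 * finrank ℚ K))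
  set D := |((discr K : ℤ) : ℝ)| ^ (x / 2)
  have hD : 0 ≤ D := Real.rpow_nonneg (abs_nonneg _) _
  have hX : D * E / Units.torsionOrder K ≤ zetaXiR K x :=
    (classXiR_one_ge hx0).trans (classXiR_le_zetaXiR _ _)
  have hxx : 0 ≤ x * (1 - x) := mul_nonneg hx0.le (by linarith)
  have hA : x * (1 - x) * (D * E) / Units.torsionOrder K ≤ polarR K := by
    have := mul_le_mul_of_nonneg_left hX hxx
    rw [xiR] at h
    rw [mul_div_assoc]
    linarith
  rw [hR_eq]
  rw [div_le_iff₀ hw] at hA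
  calc x * (1 - x) * (E / 2 ^ finrank ℚ K) * D = x * (1 - x) * (D * E) / 2 ^ finrank ℚ K := by ring
    _ ≤ polarR K * Units.torsionOrder K / 2 ^ finrank ℚ K :=
        div_le_div_of_nonneg_right hA (by positivity)
    _ ≤ _ := div_le_div_of_nonneg_left (mul_nonneg (polarR_pos K).le hw.le) (by positivity)
        (pow_le_pow_right₀ one_le_two (places_le_finrank K))

/-- No zero in `[x, 1]`. -/
theorem hR_lower_of_no_zero {x : ℝ} (hx0 : 0 < x) (hx1 : x < 1)
    (h : ∀ y ∈ Set.Icc x 1, xiFun K (y : ℂ) ≠ 0) :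
    x * (1 - x) * (Real.exp (-(π * Real.exp 1 * finrank ℚ K)) / 2 ^ finrank ℚ K) *
      |((discr K : ℤ) : ℝ)| ^ (x / 2) ≤ hR K :=
  hR_lower K hx0 hx1 (xiR_pos_of_no_zero K hx1.le h).le

/-- The bound for the Gamma factors. -/
def gammaBound (x : ℝ) : ℝ := (1 + ‖Complex.Gammaℝ x‖) * (1 + ‖Complex.Gammaℂ x‖)

theorem norm_gamFac_le (s : ℂ) :
    ‖gamFac K s‖ ≤ |((discr K : ℤ) : ℝ)| ^ (s.re / 2) *
      ((1 + ‖Complex.Gammaℝ s‖) * (1 + ‖Complex.Gammaℂ s‖)) ^ finrank ℚ K := by
  have hpos : (0 : ℝ) < ((discr K).natAbs : ℕ) :=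
    Nat.cast_pos.2 (Int.natAbs_pos.2 (discr_ne_zero K))
  rw [gamFac, norm_mul, norm_mul, norm_pow, norm_pow, ← Complex.ofReal_natCast,
    Complex.norm_cpow_eq_rpow_re_of_pos hpos, Complex.div_ofNat_re,
    show (((discr K).natAbs : ℕ) : ℝ) = |((discr K : ℤ) : ℝ)| by
      rw [← Int.cast_abs, ← Int.natCast_natAbs, Int.cast_natCast], mul_pow]
  have := places_le_finrank K
  refine mul_le_mul_of_nonneg_left (mul_le_mul ?_ ?_ (pow_nonneg (norm_nonneg _) _) (by positivity))
    (Real.rpow_nonneg (abs_nonneg _) _)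
  · exact (pow_le_pow_left₀ (norm_nonneg _) (le_add_of_nonneg_left zero_le_one) _).trans
      (pow_le_pow_right₀ (le_add_of_nonneg_right (norm_nonneg _)) (by omega))
  · exact (pow_le_pow_left₀ (norm_nonneg _) (le_add_of_nonneg_left zero_le_one) _).trans
      (pow_le_pow_right₀ (le_add_of_nonneg_right (norm_nonneg _)) (by omega))

/-- **Landau's upper bound.** -/
theorem exists_hR_upper (n : ℕ) {ε : ℝ} (hε : 0 < ε) :
    ∃ C > 0, ∀ (F : Type u) [Field F] [NumberField F], finrank ℚ F = n →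
      hR F ≤ C * |((discr F : ℤ) : ℝ)| ^ (1 / 2 + ε) := by
  set x := 1 + 2 * ε with hxdef
  refine ⟨x * (x - 1) * gammaBound x ^ n * Real.exp (n * eulerConst x) * (2 * (n : ℝ) ^ 2 + 1),
    by have h1 : 0 < x - 1 := by linarith
       unfold gammaBound; positivity, fun F _ _ hn => ?_⟩
  have hx1 : 1 < x := by linarith
  have hA : polarR F ≤ xiR F x := by
    rw [xiR]
    have := mul_nonneg (mul_nonneg (by linarith : (0 : ℝ) ≤ x) (by linarith : (0 : ℝ) ≤ x - 1))
      (zetaXiR_nonneg (K := F) x)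
    linarith
  have hxi : xiR F x ≤ x * (x - 1) *
      (|((discr F : ℤ) : ℝ)| ^ (x / 2) * gammaBound x ^ n * Real.exp (n * eulerConst x)) := by
    have h := xiFun_half F (s := (x : ℂ)) (by simpa using hx1)
    rw [xiFun_ofReal] at h
    have h2 := congrArg norm h
    rw [Complex.norm_real, norm_mul, norm_mul, norm_mul, Complex.norm_real,
      ← Complex.ofReal_one, ← Complex.ofReal_sub, Complex.norm_real,
      Real.norm_of_nonneg (by linarith : 0 ≤ x), Real.norm_of_nonneg (by linarith : 0 ≤ x - 1)] at h2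
    refine (le_abs_self _).trans (le_of_eq_of_le h2 ?_)
    refine mul_le_mul_of_nonneg_left ?_ (by nlinarith)
    have hg := norm_gamFac_le F (x : ℂ)
    have hz := (norm_dedekindZeta_bounds (K := F) (s := (x : ℂ)) (by simpa using hx1)).2
    rw [hn] at hg hz
    simp only [Complex.ofReal_re] at hg hz
    exact mul_le_mul hg hz (norm_nonneg _) (by unfold gammaBound; positivity)
  have hwn : (Units.torsionOrder F : ℝ) ≤ 2 * (n : ℝ) ^ 2 + 1 := by
    have := FA.ConductorDiscr.torsionOrder_le F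
    rw [hn] at this
    have h2 : (Units.torsionOrder F : ℝ) ≤ ((2 * n ^ 2 : ℕ) : ℝ) := Nat.cast_le.2 this
    push_cast at h2
    linarith
  have hw : (0 : ℝ) < Units.torsionOrder F := Nat.cast_pos.2 (Units.torsionOrder_pos F)
  rw [hR_eq]
  refine (div_le_self (mul_nonneg (polarR_pos F).le hw.le) (one_le_pow₀ one_le_two)).trans ?_
  refine (mul_le_mul (hA.trans hxi) hwn hw.le (by
    have : 0 ≤ x - 1 := by linarith
    unfold gammaBound; positivity)).trans (le_of_eq ?_)
  rw [show x / 2 = 1 / 2 + ε by rw [hxdef]; ring]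
  ring

end FA.HeckeBS
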