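import Mathlib

/-!
# Growth of an entire quotient

If `f` is entire and `f B = A`, then `log |f|` on a disc is bounded by three times
`log⁺ |A| + log⁺ |B|` on a concentric circle of twice the radius, minus `log |B|` at the centre
(Poisson and Jensen). With the principle of Phragmén and Lindelöf this bounds `f` in a strip by its
bound on the two edges.
-/

set_option autoImplicit false
set_option linter.style.haveILetI false

noncomputable section

open Complex Metric Real Set Filter Topology MeromorphicOn InnerProductSpace Asymptotics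
open scoped Real Classical

namespace FA.HeckeBS

theorem one_le_norm_canonicalFactor {R : ℝ} (hR : 0 < R) {i w : ℂ} (hi : ‖i‖ < R) (hw : ‖w‖ ≤ R)
    (hne : w ≠ i) : 1 ≤ ‖canonicalFactor R i w‖ := by
  rw [canonicalFactor_apply, norm_div, one_le_div (norm_pos_iff.2
    (mul_ne_zero (ofReal_ne_zero.2 hR.ne') (sub_ne_zero.2 hne)))]
  rw [← sq_le_sq₀ (norm_nonneg _) (norm_nonneg _), norm_mul, mul_pow, norm_real,
    Real.norm_of_nonneg hR.le, ← normSq_eq_norm_sq, ← normSq_eq_norm_sq]
  have h1 : 0 ≤ (R ^ 2 - ‖i‖ ^ 2) * (R ^ 2 - ‖w‖ ^ 2) :=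
    mul_nonneg (sub_nonneg.2 (pow_le_pow_left₀ (norm_nonneg _) hi.le 2))
      (sub_nonneg.2 (pow_le_pow_left₀ (norm_nonneg _) hw 2))
  simp only [← normSq_eq_norm_sq, normSq_apply] at h1
  simp only [normSq_apply, sub_re, sub_im, mul_re, mul_im, ← ofReal_pow, ofReal_re, ofReal_im,
    conj_re, conj_im]
  nlinarith

/-- **The formula of Poisson and Jensen.** -/
theorem log_norm_eq_circleAverage {f : ℂ → ℂ} (hf : Differentiable ℂ f) {R : ℝ} (hR : 0 < R) {w : ℂ}
    (hw : w ∈ ball (0 : ℂ) R) (hfw : f w ≠ 0) :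
    Real.log ‖f w‖ +
        ∑ᶠ i, (divisor f (ball (0 : ℂ) R) i : ℝ) * Real.log ‖canonicalFactor R i w‖ =
      circleAverage ((Complex.re ∘ herglotzRieszKernel 0 w) • fun z => Real.log ‖f z‖) 0 R := by
  have hfa : ∀ z, AnalyticAt ℂ f z := fun z => hf.analyticAt z
  have hmer : MeromorphicOn f (closedBall 0 R) := fun z _ => (hfa z).meromorphicAt
  have hord : ∀ z : ℂ, meromorphicOrderAt f z ≠ ⊤ := fun z => by
    rw [(hfa z).meromorphicOrderAt_eq]
    have hne : analyticOrderAt f z ≠ ⊤ := by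
      intro h
      have := (analyticOnNhd_univ_iff_differentiable.mpr hf).eqOn_zero_of_preconnected_of_eventuallyEq_zero
        isPreconnected_univ (mem_univ z) (analyticOrderAt_eq_top.1 h)
      exact hfw (this (mem_univ w))
    simpa using hne
  obtain ⟨g, D⟩ := hmer.exists_ecanonicalDecomp fun u => hord u
  have hwc : w ∈ closedBall (0 : ℂ) R := ball_subset_closedBall hw
  have h0 : ∀ z, f z ≠ 0 → meromorphicOrderAt f z = 0 := fun z hz => by
    rw [(hfa z).meromorphicOrderAt_eq, (hfa z).analyticOrderAt_eq_zero.2 hz]; rfl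
  have hsfin : (divisor f (sphere (0 : ℂ) R)).support.Finite :=
    (divisor f (sphere (0 : ℂ) R)).finiteSupport (isCompact_sphere _ _)
  set S := hsfin.toFinset
  have hsum : ∀ z : ℂ, ∑ᶠ i, (divisor f (sphere (0 : ℂ) R) i : ℝ) * Real.log ‖z - i‖ =
      ∑ i ∈ S, (divisor f (sphere (0 : ℂ) R) i : ℝ) * Real.log ‖z - i‖ := fun z => by
    refine finsum_eq_sum_of_support_subset _ fun i hi => ?_
    simp only [S, Set.Finite.coe_toFinset, Function.mem_support] at hi ⊢
    exact fun h => hi (by simp [h])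
  set P := Complex.re ∘ herglotzRieszKernel 0 w
  have hwabs : w ∈ ball (0 : ℂ) R := hw
  -- the value at `w`
  have hw1 : Real.log ‖f w‖ +
      ∑ᶠ i, (divisor f (ball (0 : ℂ) R) i : ℝ) * Real.log ‖canonicalFactor R i w‖ =
      Real.log ‖g w‖ + ∑ i ∈ S, (divisor f (sphere (0 : ℂ) R) i : ℝ) * Real.log ‖w - i‖ := by
    have h := D.log_norm_eq hwc (h0 w hfw) hR
    rw [(hfa w).meromorphicTrailingCoeffAt_of_ne_zero hfw, hsum] at h
    linarith
  -- the average
  have hgi : CircleIntegrable (P • fun z => Real.log ‖g z‖) 0 R := by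
    refine CircleIntegrable.continuousOn_smul ?_ (continuous_re.comp_continuousOn
      (continuousOn_herglotzRieszKernel_sphere hwabs))
    refine MeromorphicOn.circleIntegrable_log_norm fun z hz => ?_
    exact (D.analyticOnNhd z (sphere_subset_closedBall (by rwa [abs_of_pos hR] at hz))).meromorphicAt
  have hhi : ∀ i, CircleIntegrable (P • fun z : ℂ => Real.log ‖z - i‖) 0 R := fun i =>
    CircleIntegrable.continuousOn_smul
      (MeromorphicOn.circleIntegrable_log_norm fun z _ => by fun_prop)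
      (continuous_re.comp_continuousOn (continuousOn_herglotzRieszKernel_sphere hwabs))
  have hg1 : circleAverage (P • fun z => Real.log ‖g z‖) 0 R = Real.log ‖g w‖ := by
    refine HarmonicOnNhd.circleAverage_re_herglotzRieszKernel_smul (fun z hz => ?_) hw
    exact (D.analyticOnNhd z hz).harmonicAt_log_norm (D.ne_zero z hz)
  have hfin : ∀ᶠ z in codiscreteWithin (sphere (0 : ℂ) |R|), f z ≠ 0 := by
    rcases (analyticOnNhd_univ_iff_differentiable.mpr hf).eqOn_zero_or_eventually_ne_zero_of_preconnected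
      isPreconnected_univ with h | h
    · exact absurd (h (mem_univ w)) hfw
    · exact h.filter_mono (codiscreteWithin_mono (subset_univ _))
  have heq : (P • fun z => Real.log ‖f z‖) =ᶠ[codiscreteWithin (sphere (0 : ℂ) |R|)]
      (P • fun z => Real.log ‖g z‖) + ∑ i ∈ S,
        (divisor f (sphere (0 : ℂ) R) i : ℝ) • (P • fun z => Real.log ‖z - i‖) := by
    filter_upwards [hfin, self_mem_codiscreteWithin (sphere (0 : ℂ) |R|)] with z hz hzs
    rw [abs_of_pos hR] at hzs
    have h := D.log_norm_eq (sphere_subset_closedBall hzs) (h0 z hz) hR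
    rw [(hfa z).meromorphicTrailingCoeffAt_of_ne_zero hz, hsum] at h
    have hb : ∑ᶠ i, (divisor f (ball (0 : ℂ) R) i : ℝ) * Real.log ‖canonicalFactor R i z‖ = 0 := by
      refine finsum_eq_zero_of_forall_eq_zero fun i => ?_
      by_cases hi : i ∈ ball (0 : ℂ) R
      · rw [norm_canonicalFactor_eval_circle_eq_one hi hzs, Real.log_one, mul_zero]
      · simp [Function.locallyFinsuppWithin.apply_eq_zero_of_notMem _ hi]
    rw [hb, zero_sub] at h
    simp only [Pi.smul_apply', Pi.mul_apply, Pi.add_apply, Finset.sum_apply, Pi.smul_apply, smul_eq_mul]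
    have : ∑ i ∈ S, (divisor f (sphere (0 : ℂ) R) i : ℝ) * (P z * Real.log ‖z - i‖) =
        P z * ∑ i ∈ S, (divisor f (sphere (0 : ℂ) R) i : ℝ) * Real.log ‖z - i‖ := by
      rw [Finset.mul_sum]; exact Finset.sum_congr rfl fun i _ => by ring
    rw [this, ← mul_add, h]
    ring
  rw [circleAverage_congr_codiscreteWithin heq hR.ne', circleAverage_add hgi
    (CircleIntegrable.sum _ fun i _ => (hhi i).const_smul), hg1, circleAverage_sum fun i _ => (hhi i).const_smul]
  refine hw1.trans ?_
  congr 1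
  refine Finset.sum_congr rfl fun i hi => ?_
  have hi' : i ∈ sphere (0 : ℂ) R :=
    (divisor f (sphere (0 : ℂ) R)).supportWithinDomain (hsfin.mem_toFinset.1 hi)
  rw [circleAverage_smul, smul_eq_mul]
  congr 1
  exact (circleAverage_re_herglotzRieszKernel_mul_log hi' hw).symm

/-- **The inequality of Poisson and Jensen.** -/
theorem log_norm_le_circleAverage {f : ℂ → ℂ} (hf : Differentiable ℂ f) {R : ℝ} (hR : 0 < R) {w : ℂ}
    (hw : w ∈ ball (0 : ℂ) R) (hfw : f w ≠ 0) :
    Real.log ‖f w‖ ≤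
      circleAverage ((Complex.re ∘ herglotzRieszKernel 0 w) • fun z => Real.log ‖f z‖) 0 R := by
  rw [← log_norm_eq_circleAverage hf hR hw hfw, le_add_iff_nonneg_right]
  refine finsum_nonneg fun i => ?_
  by_cases hi : i ∈ ball (0 : ℂ) R
  · refine mul_nonneg (Int.cast_nonneg ?_) ?_
    · exact AnalyticOnNhd.divisor_nonneg (fun z _ => hf.analyticAt z) i
    · rcases eq_or_ne w i with rfl | hne
      · simp
      · exact Real.log_nonneg (one_le_norm_canonicalFactor hR (mem_ball_zero_iff.1 hi)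
          (mem_closedBall_zero_iff.1 (ball_subset_closedBall hw)) hne)
  · simp [Function.locallyFinsuppWithin.apply_eq_zero_of_notMem _ hi]

/-- **The quotient bound.** -/
theorem log_norm_quotient_le {f A B : ℂ → ℂ} (hf : Differentiable ℂ f) (hA : Differentiable ℂ A)
    (hB : Differentiable ℂ B) (h : ∀ z, f z * B z = A z) {R : ℝ} (hR : 0 < R) (hB0 : B 0 ≠ 0)
    {a b : ℝ} (hAb : ∀ z ∈ sphere (0 : ℂ) R, log⁺ ‖A z‖ ≤ a)
    (hBb : ∀ z ∈ sphere (0 : ℂ) R, log⁺ ‖B z‖ ≤ b) {w : ℂ} (hw : ‖w‖ ≤ R / 2) (hfw : f w ≠ 0) :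
    Real.log ‖f w‖ ≤ 3 * (a + b - Real.log ‖B 0‖) := by
  have hwb : w ∈ ball (0 : ℂ) R := mem_ball_zero_iff.2 (by linarith)
  refine (log_norm_le_circleAverage hf hR hwb hfw).trans ?_
  set P := Complex.re ∘ herglotzRieszKernel 0 w
  have hP : ∀ z ∈ sphere (0 : ℂ) |R|, 0 ≤ P z ∧ P z ≤ 3 := fun z hz => by
    rw [abs_of_pos hR] at hz
    have h1 := re_herglotzRieszKernel_le hz hwb
    have h2 := le_re_herglotzRieszKernel hz hwb
    simp only [sub_zero] at h1 h2
    simp only [P, Function.comp_apply, herglotzRieszKernel_def, sub_zero]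
    refine ⟨le_trans (div_nonneg (by linarith [norm_nonneg w]) (by linarith [norm_nonneg w])) h2,
      h1.trans ?_⟩
    rw [div_le_iff₀ (by linarith [norm_nonneg w])]
    linarith
  have hmer : ∀ {g : ℂ → ℂ}, Differentiable ℂ g → MeromorphicOn g (sphere (0 : ℂ) |R|) :=
    fun hg z _ => (hg.analyticAt z).meromorphicAt
  have hfl := (hmer hf).circleIntegrable_log_norm (c := (0 : ℂ)) (R := R)
  have hfp := (hmer hf).circleIntegrable_posLog_norm (c := (0 : ℂ)) (R := R)
  have hPc : ContinuousOn P (sphere (0 : ℂ) |R|) :=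
    continuous_re.comp_continuousOn (continuousOn_herglotzRieszKernel_sphere hwb)
  calc circleAverage (P • fun z => Real.log ‖f z‖) 0 R
      ≤ circleAverage (fun z => 3 * log⁺ ‖f z‖) 0 R := by
        refine circleAverage_mono (hfl.continuousOn_smul hPc) (hfp.const_mul 3) fun z hz => ?_
        obtain ⟨h1, h2⟩ := hP z hz
        have hl : Real.log ‖f z‖ ≤ log⁺ ‖f z‖ := le_max_right _ _
        exact (mul_le_mul_of_nonneg_left hl h1).trans (mul_le_mul_of_nonneg_right h2 posLog_nonneg)
    _ = 3 * circleAverage (fun z => log⁺ ‖f z‖) 0 R := by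
        rw [← smul_eq_mul 3, ← circleAverage_fun_smul]; rfl
    _ ≤ 3 * (a + b - Real.log ‖B 0‖) := by
        refine mul_le_mul_of_nonneg_left ?_ (by norm_num)
        have hne : ∀ᶠ z in codiscreteWithin (sphere (0 : ℂ) |R|), B z ≠ 0 := by
          rcases (analyticOnNhd_univ_iff_differentiable.mpr hB).eqOn_zero_or_eventually_ne_zero_of_preconnected
            isPreconnected_univ with h' | h'
          · exact absurd (h' (mem_univ 0)) hB0
          · exact h'.filter_mono (codiscreteWithin_mono (subset_univ _))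
        have heq : (fun z => log⁺ ‖f z‖) =ᶠ[codiscreteWithin (sphere (0 : ℂ) |R|)]
            fun z => log⁺ ‖A z / B z‖ := by
          filter_upwards [hne] with z hz
          rw [← h z, mul_div_cancel_right₀ _ hz]
        rw [circleAverage_congr_codiscreteWithin heq hR.ne']
        have hAB : MeromorphicOn (fun z => A z / B z) (sphere (0 : ℂ) |R|) :=
          fun z hz => (hmer hA z hz).div (hmer hB z hz)
        have hBl := (hmer hB).circleIntegrable_log_norm (c := (0 : ℂ)) (R := R)
        have hconst : CircleIntegrable (fun _ : ℂ => a + b) 0 R := circleIntegrable_const _ _ _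
        calc circleAverage (fun z => log⁺ ‖A z / B z‖) 0 R
            ≤ circleAverage (fun z => (a + b) - Real.log ‖B z‖) 0 R := by
              refine circleAverage_mono hAB.circleIntegrable_posLog_norm (hconst.sub hBl) fun z hz => ?_
              rw [abs_of_pos hR] at hz
              have h1 := posLog_mul (x := ‖A z‖) (y := ‖B z‖⁻¹)
              rw [← norm_inv, ← norm_mul, ← div_eq_mul_inv] at h1
              have h2 : log⁺ ‖(B z)⁻¹‖ = log⁺ ‖B z‖ - Real.log ‖B z‖ := by
                rw [norm_inv, ← posLog_sub_posLog_inv (x := ‖B z‖)]; ring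
              linarith [hAb z hz, hBb z hz]
          _ ≤ a + b - Real.log ‖B 0‖ := by
              rw [circleAverage_fun_sub hconst hBl, circleAverage_const]
              refine sub_le_sub_left ?_ _
              have hBan : AnalyticOnNhd ℂ B (closedBall 0 |R|) := fun z _ => hB.analyticAt z
              rw [hBan.circleAverage_log_norm hR.ne' hB0, le_add_iff_nonneg_left]
              refine finsum_nonneg fun i => ?_
              by_cases hi : i ∈ closedBall (0 : ℂ) |R|
              · refine mul_nonneg (Int.cast_nonneg (hBan.divisor_nonneg i)) ?_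
                rcases eq_or_ne i 0 with rfl | hi0
                · simp
                · refine Real.log_nonneg ?_
                  rw [zero_sub, norm_neg, ← div_eq_mul_inv, one_le_div (norm_pos_iff.2 hi0)]
                  rw [abs_of_pos hR] at hi
                  exact mem_closedBall_zero_iff.1 hi
              · simp [Function.locallyFinsuppWithin.apply_eq_zero_of_notMem _ hi]

/-- **The bound in a strip.** -/
theorem norm_quotient_le {f A B : ℂ → ℂ} (hf : Differentiable ℂ f) (hA : Differentiable ℂ A)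
    (hB : Differentiable ℂ B) (h : ∀ z, f z * B z = A z) {C c D : ℝ} (hC : 0 ≤ C) (hc : 0 < c)
    (hD : 0 ≤ D)
    (hAb : ∀ s : ℂ, s.re ∈ Icc (-4) 8 → ‖A s‖ ≤ C * (1 + |s.im|) ^ 2)
    (hBb : ∀ s : ℂ, s.re ∈ Icc (-4) 8 → ‖B s‖ ≤ C * (1 + |s.im|) ^ 2)
    (hBl : ∀ t : ℝ, c * Real.exp (-(D * |t|)) ≤ ‖B (2 + t * I)‖)
    {a b M : ℝ} (ha : -1 ≤ a) (hb : b ≤ 2) (hab : a < b)
    (hl : ∀ s : ℂ, s.re = a → ‖f s‖ ≤ M) (hr : ∀ s : ℂ, s.re = b → ‖f s‖ ≤ M)
    {z : ℂ} (hza : a ≤ z.re) (hzb : z.re ≤ b) : ‖f z‖ ≤ M := by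
  refine PhragmenLindelof.vertical_strip hf.diffContOnCl ?_ hl hr hza hzb
  set E := 2 * (98 * C) + |Real.log c| + D
  refine ⟨1, ?_, 12 * E, ?_⟩
  · rw [lt_div_iff₀ (by linarith), one_mul]
    linarith [Real.pi_gt_three]
  refine IsBigO.of_bound' (eventually_inf_principal.2 (Eventually.of_forall fun s hs => ?_))
  have hs' : a < s.re ∧ s.re < b := hs
  rw [Real.norm_eq_abs, Real.abs_exp]
  rcases eq_or_ne (f s) 0 with h0 | h0
  · rw [h0, norm_zero]; exact (Real.exp_pos _).le
  rw [← Real.exp_log (norm_pos_iff.2 h0)]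
  refine Real.exp_le_exp.2 ?_
  set t := s.im
  set z₀ : ℂ := 2 + t * I
  have hB0 : B z₀ ≠ 0 := norm_pos_iff.1 ((mul_pos hc (Real.exp_pos _)).trans_le (hBl t))
  set T := (1 + |t|) ^ 2
  have hT : 1 ≤ T := one_le_pow₀ (by linarith [abs_nonneg t])
  have hbd : ∀ (G : ℂ → ℂ), (∀ u : ℂ, u.re ∈ Icc (-4) 8 → ‖G u‖ ≤ C * (1 + |u.im|) ^ 2) →
      ∀ u ∈ sphere (0 : ℂ) 6, log⁺ ‖G (u + z₀)‖ ≤ 98 * C * T := fun G hG u hu => by
    have hu' : ‖u‖ = 6 := mem_sphere_zero_iff_norm.1 hu
    have hre : (u + z₀).re = u.re + 2 := by simp [z₀]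
    have him : (u + z₀).im = u.im + t := by simp [z₀]
    have h1 := hG (u + z₀) (by
      rw [hre]
      have := abs_le.1 ((Complex.abs_re_le_norm u).trans hu'.le)
      exact ⟨by linarith, by linarith⟩)
    refine le_trans ?_ (h1.trans ?_)
    · rcases le_or_gt ‖G (u + z₀)‖ 1 with h2 | h2
      · rw [(posLog_eq_zero_iff _).2 (by rwa [abs_norm])]; exact norm_nonneg _
      · rw [posLog_eq_log (by rw [abs_norm]; exact h2.le)]
        exact Real.log_le_self (norm_nonneg _)
    · rw [him, mul_comm 98 C, mul_assoc]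
      refine mul_le_mul_of_nonneg_left ?_ hC
      have h3 : 1 + |u.im + t| ≤ 7 * (1 + |t|) := by
        linarith [abs_add_le u.im t, (Complex.abs_im_le_norm u).trans hu'.le, abs_nonneg t]
      calc (1 + |u.im + t|) ^ 2 ≤ (7 * (1 + |t|)) ^ 2 :=
            pow_le_pow_left₀ (by positivity) h3 2
        _ ≤ 98 * T := by rw [mul_pow]; nlinarith
  have hkey := log_norm_quotient_le (f := fun u => f (u + z₀)) (A := fun u => A (u + z₀))
    (B := fun u => B (u + z₀)) (hf.comp (differentiable_id.add_const z₀))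
    (hA.comp (differentiable_id.add_const z₀)) (hB.comp (differentiable_id.add_const z₀))
    (fun u => h (u + z₀)) (by norm_num : (0 : ℝ) < 6) (by simpa using hB0) (hbd A hAb) (hbd B hBb)
    (w := s - z₀) ?_ (by simpa using h0)
  · simp only [sub_add_cancel, zero_add] at hkey
    refine hkey.trans ?_
    have hlog : Real.log c - D * |t| ≤ Real.log ‖B z₀‖ := by
      have h5 := Real.log_le_log (mul_pos hc (Real.exp_pos _)) (hBl t)
      rwa [Real.log_mul hc.ne' (Real.exp_pos _).ne', Real.log_exp, ← sub_eq_add_neg] at h5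
    have hexp : T ≤ 4 * Real.exp (1 * |t|) := by
      have h6 : 1 + |t| ≤ 2 * Real.exp (|t| / 2) := by linarith [Real.add_one_le_exp (|t| / 2)]
      calc T ≤ (2 * Real.exp (|t| / 2)) ^ 2 := pow_le_pow_left₀ (by positivity) h6 2
        _ = 4 * Real.exp (1 * |t|) := by
          rw [mul_pow, ← Real.exp_nat_mul]; push_cast; ring_nf
    have hDt : D * |t| ≤ D * T :=
      mul_le_mul_of_nonneg_left (by nlinarith [abs_nonneg t]) hD
    have hlc : -Real.log c ≤ |Real.log c| * T :=
      (neg_le_abs _).trans (le_mul_of_one_le_right (abs_nonneg _) hT)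
    calc 3 * (98 * C * T + 98 * C * T - Real.log ‖B z₀‖) ≤ 3 * (E * T) :=
          mul_le_mul_of_nonneg_left (by simp only [E]; linarith) (by norm_num)
      _ ≤ 3 * (E * (4 * Real.exp (1 * |t|))) := by
          refine mul_le_mul_of_nonneg_left (mul_le_mul_of_nonneg_left hexp ?_) (by norm_num)
          simp only [E]; positivity
      _ = 12 * E * Real.exp (1 * |t|) := by ring
  · have hz : s - z₀ = ((s.re - 2 : ℝ) : ℂ) := by
      apply Complex.ext <;> simp [z₀, t]
    rw [hz, Complex.norm_real, Real.norm_eq_abs, abs_le]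
    constructor <;> linarith [hs'.1, hs'.2]

end FA.HeckeBS
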