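import Fermat.Agent.HeckeBS.Strip

/-!
# The theta integral bounds the completed zeta function below

The orbit of one generator of a principal ideal, restricted to `1 < τ`, gives
`classXiR 1 s ≥ exp (-π e n) |d|^(s/2) / w` for `0 < s`.
-/

set_option autoImplicit false
set_option linter.style.haveILetI false

noncomputable section

open NumberField InfinitePlace Module MeasureTheory Set Filter
open scoped Real nonZeroDivisors Classical Topology

namespace FA.HeckeBS

open FA.HeckeFE

variable {K : Type*} [Field K] [NumberField K] (I : (FractionalIdeal (𝓞 K)⁰ K)ˣ)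

/-- The absolute value of the orbit integrand at a real point. -/
def orbR (σ : ℝ) (x : K) (p : ℝ × (RestPlace K → ℝ)) : ℝ :=
  Real.exp (σ * p.1) * Real.exp (-π * qform (weight I p.1 p.2) x)

theorem norm_orbitFun_ofReal (σ : ℝ) (x : K) (p : ℝ × (RestPlace K → ℝ)) :
    ‖orbitFun I (σ : ℂ) x p‖ = orbR I σ x p := by
  rw [norm_orbitFun, Complex.ofReal_re, orbR]

theorem integrable_orbR {σ : ℝ} (hσ : 0 < σ) {x : K} (hx : x ≠ 0) : Integrable (orbR I σ x) := by
  refine (integral_orbitFun I (σ := (σ : ℂ)) (by simpa using hσ) hx).1.norm.congr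
    (Filter.Eventually.of_forall fun p => norm_orbitFun_ofReal I σ x p)

theorem integrableOn_phi (σ : ℝ) :
    IntegrableOn (fun τ => τ ^ (σ - 1) * phi I τ) (Ioi 0) := by
  have h : MellinConvergent (pair I).f_modif (σ : ℂ) :=
    ((pair I).isStrongFEPair_toStrongFEPair.hasMellin (σ : ℂ)).1
  refine IntegrableOn.congr_fun h.norm (fun τ hτ => ?_) measurableSet_Ioi
  rw [integrand_eq I hτ, Complex.ofReal_re]

/-- The part with `1 < τ`, written on the strip. -/
theorem integral_phi_ge (σ : ℝ) :
    IntegrableOn (fun L : ℝ => Real.exp (σ * L) * (kern I (Real.exp L) - 1)) (Ioi 0) ∧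
      ∫ L in Ioi (0 : ℝ), Real.exp (σ * L) * (kern I (Real.exp L) - 1) ≤
        ∫ τ in Ioi (0 : ℝ), τ ^ (σ - 1) * phi I τ := by
  have heq : EqOn (fun τ => τ ^ (σ - 1) * phi I τ) (fun τ => τ ^ (σ - 1) * (kern I τ - 1)) (Ioi 1) :=
    fun τ hτ => by
      have hτ' : (1 : ℝ) < τ := hτ
      simp only [phi, indicator_of_mem hτ, indicator_of_notMem (notMem_Ioo_of_ge hτ'.le), add_zero]
  have hg : EqOn (fun L : ℝ => Real.exp L • (Real.exp L ^ (σ - 1) * (kern I (Real.exp L) - 1)))
      (fun L : ℝ => Real.exp (σ * L) * (kern I (Real.exp L) - 1)) (Ioi 0) := fun L _ => by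
    simp only [smul_eq_mul, ← mul_assoc, ← Real.exp_mul, ← Real.exp_add]
    ring_nf
  have hsub : IntegrableOn (fun τ => τ ^ (σ - 1) * phi I τ) (Ioi 1) :=
    (integrableOn_phi I σ).mono_set (Ioi_subset_Ioi zero_le_one)
  constructor
  · refine IntegrableOn.congr_fun ?_ hg measurableSet_Ioi
    rw [integrableOn_comp_exp_Ioi (fun τ => τ ^ (σ - 1) * (kern I τ - 1)) 0, Real.exp_zero]
    exact hsub.congr_fun heq measurableSet_Ioi
  · rw [← setIntegral_congr_fun measurableSet_Ioi hg,
      integral_comp_exp_Ioi (fun τ => τ ^ (σ - 1) * (kern I τ - 1)) 0, Real.exp_zero,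
      ← setIntegral_congr_fun measurableSet_Ioi heq]
    refine setIntegral_mono_set (integrableOn_phi I σ) ?_ (Ioi_subset_Ioi zero_le_one).eventuallyLE
    filter_upwards [ae_restrict_mem measurableSet_Ioi] with τ hτ
    exact mul_nonneg (Real.rpow_nonneg (le_of_lt hτ) _) (phi_nonneg I τ)

/-- The orbit of `g`, restricted to `0 < L`. -/
theorem orbit_le_integral_phi {σ : ℝ} (hσ : 0 < σ) {g : K} (hg : g ∈ (I : Set K)) (hg0 : g ≠ 0) :
    ∫ p, ({p : ℝ × (RestPlace K → ℝ) | 0 < p.1}).indicator (orbR I σ g) p ≤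
      ∫ τ in Ioi (0 : ℝ), τ ^ (σ - 1) * phi I τ := by
  set P : Set (ℝ × (RestPlace K → ℝ)) := {p | 0 < p.1}
  have hP : MeasurableSet P := measurableSet_lt measurable_const measurable_fst
  have hG : Integrable (P.indicator (orbR I σ g)) := (integrable_orbR I hσ hg0).indicator hP
  obtain ⟨hint, hle⟩ := integral_phi_ge I σ
  refine le_of_tendsto (hasSum_strip hG) (Filter.Eventually.of_forall fun F => le_trans ?_ hle)
  -- the translates
  let j : (RestPlace K → ℤ) → NZ I := fun m =>
    ⟨((unitPow m : 𝓞 K) : K) * g, (unitPerm I (unitPow m) ⟨g, hg⟩).2,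
      mul_ne_zero (Units.coe_ne_zero _) hg0⟩
  have hjinj : Function.Injective j := fun m m' h => by
    have h' : ((unitPow m : 𝓞 K) : K) = ((unitPow m' : 𝓞 K) : K) :=
      mul_right_cancel₀ hg0 (congrArg Subtype.val h)
    have h'' : unitPow m = unitPow m' := Units.ext (RingOfIntegers.coe_injective h')
    rw [unitPow_eq, unitPow_eq] at h''
    have hu := (Units.exist_unique_eq_mul_prod K
      (∏ i, Units.fundSystem K i ^ m (mixedEmbedding.fundamentalCone.equivFinRank i))).unique
      (y₁ := (1, fun i => m (mixedEmbedding.fundamentalCone.equivFinRank i)))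
      (y₂ := (1, fun i => m' (mixedEmbedding.fundamentalCone.equivFinRank i)))
      (by simp) (by simpa using h'')
    funext i
    have := congrFun (congrArg Prod.snd hu) (mixedEmbedding.fundamentalCone.equivFinRank.symm i)
    simpa using this
  set ν := (volume : Measure (RestPlace K → ℝ)).restrict (cube K)
  have htr : ∀ m p, P.indicator (orbR I σ g) (p + (0, ofInt m)) =
      P.indicator (orbR I σ (j m).1) p := fun m p => by
    have hm : p + (0, ofInt m) ∈ P ↔ p ∈ P := by simp [P]
    have ho : orbR I σ g (p + (0, ofInt m)) = orbR I σ (j m).1 p := by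
      simp only [orbR, j, Prod.fst_add, Prod.snd_add, add_zero, qform_weight_add_ofInt]
    by_cases hp : p ∈ P
    · rw [indicator_of_mem (hm.2 hp), indicator_of_mem hp, ho]
    · rw [indicator_of_notMem (fun h => hp (hm.1 h)), indicator_of_notMem hp]
  have hN : ∀ x : NZ I, Integrable (P.indicator (orbR I σ x.1)) ((volume : Measure ℝ).prod ν) :=
    fun x => by
      rw [← volume_restrict_strip_zero]
      exact ((integrable_orbR I hσ x.2.2).indicator hP).integrableOn
  simp only [htr, volume_restrict_strip_zero]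
  rw [← integral_finsetSum _ fun m _ => hN (j m), integral_prod _ (integrable_finsetSum _ fun m _ => hN (j m)),
    ← integral_indicator measurableSet_Ioi]
  refine integral_mono (Integrable.integral_prod_left (integrable_finsetSum _ fun m _ => hN (j m)))
    (hint.integrable_indicator measurableSet_Ioi) fun L => ?_
  show ∫ z in cube K, _ ≤ _
  by_cases hL : 0 < L
  · have hmem : ∀ z : RestPlace K → ℝ, (L, z) ∈ P := fun z => hL
    simp only [indicator_of_mem (hmem _)]
    rw [indicator_of_mem (show L ∈ Ioi (0 : ℝ) from hL), kern_sub_one, Real.log_exp,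
      ← integral_const_mul]
    have hc : Continuous fun z : RestPlace K → ℝ =>
        Real.exp (σ * L) * ∑' x : NZ I, Real.exp (-π * qform (weight I L z) x.1) := by
      have he : (fun z : RestPlace K → ℝ =>
          Real.exp (σ * L) * ∑' x : NZ I, Real.exp (-π * qform (weight I L z) x.1)) =
          fun z => Real.exp (σ * L) * (theta (I : Set K) (weight I L z) - 1) := funext fun z => by
        rw [theta_eq_one_add I (weight_pos I L z), add_sub_cancel_left]
      rw [he]
      exact continuous_const.mul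
        (((continuous_theta_weight I).comp (Continuous.prodMk_right L)).sub continuous_const)
    refine setIntegral_mono_on ?_ (hc.continuousOn.integrableOn_compact isCompact_cube)
      measurableSet_cube fun z _ => ?_
    · refine (continuous_finsetSum _ fun m _ => ?_).continuousOn.integrableOn_compact isCompact_cube
      have h := (continuous_orbitFun I (σ : ℂ) (j m).1).norm.comp (Continuous.prodMk_right L)
      simpa only [Function.comp_def, norm_orbitFun_ofReal] using h
    · simp only [orbR, ← Finset.mul_sum]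
      refine mul_le_mul_of_nonneg_left ?_ (Real.exp_pos _).le
      rw [← Finset.sum_image (f := fun x : NZ I => Real.exp (-π * qform (weight I L z) x.1))
        (fun a _ b _ h => hjinj h)]
      exact (summable_NZ I (weight_pos I L z)).sum_le_tsum _ fun x _ => (Real.exp_pos _).le
  · have hmem : ∀ z : RestPlace K → ℝ, (L, z) ∉ P := fun z => hL
    simp only [indicator_of_notMem (hmem _), Finset.sum_const_zero, integral_zero]
    rw [indicator_of_notMem (show L ∉ Ioi (0 : ℝ) from hL)]

/-- The orbit integral over `0 < L` in the logarithmic coordinates. -/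
theorem orbit_lower {σ : ℝ} (hσ : 0 < σ) {g : K} (hg0 : g ≠ 0) (hr : ratio I g = 1) :
    |((discr K : ℤ) : ℝ)| ^ σ * Real.exp (-(π * Real.exp 1 * finrank ℚ K)) /
        |LinearMap.det (expoMap K)| ≤
      ∫ p, ({p : ℝ × (RestPlace K → ℝ) | 0 < p.1}).indicator (orbR I σ g) p := by
  set a : InfinitePlace K → ℝ := fun w => -Real.log (scale I * w g ^ 2) with ha
  have hsum : ∑ w, (mult w : ℝ) * a w = Real.log |((discr K : ℤ) : ℝ)| := by
    have hN := normR_pos I
    have h1 : ((|Algebra.norm ℚ g| : ℚ) : ℝ) = normR I := (div_eq_one_iff_eq hN.ne').1 hr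
    have hlog : Real.log (scale I ^ finrank ℚ K) =
        -(2 * Real.log (normR I) + Real.log |((discr K : ℤ) : ℝ)|) := by
      rw [scale_pow_finrank, Real.log_inv, Real.log_mul (pow_ne_zero 2 hN.ne') absDiscr_pos.ne',
        Real.log_pow]
      norm_num
    have h2 : ∀ w : InfinitePlace K, (mult w : ℝ) * a w =
        -((mult w : ℝ) * Real.log (scale I)) - 2 * ((mult w : ℝ) * Real.log (w g)) := fun w => by
      rw [ha]
      simp only
      rw [Real.log_mul (scale_pos I).ne' (pow_ne_zero 2 (pos_iff.2 hg0).ne'), Real.log_pow]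
      push_cast; ring
    rw [Finset.sum_congr rfl fun w _ => h2 w, Finset.sum_sub_distrib, Finset.sum_neg_distrib,
      ← Finset.sum_mul, ← Finset.mul_sum, ← log_abs_norm hg0, h1, ← Nat.cast_sum, sum_mult_eq,
      ← Real.log_pow, hlog]
    ring
  set c : InfinitePlace K → ℝ := fun w => Real.exp (σ * ((mult w : ℝ) * a w) + -(π * Real.exp 1 * mult w))
  set Q : Set (InfinitePlace K → ℝ) := {u | 0 < ∑ w, (mult w : ℝ) * u w}
  have hQ : MeasurableSet Q :=
    measurableSet_lt measurable_const (Finset.measurable_sum _ fun w _ => (measurable_pi_apply w).const_mul _)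
  set Ψ : (InfinitePlace K → ℝ) → ℝ := fun u => ∏ w, ‖placeFun I (σ : ℂ) g w (u w)‖
  have hΨ : ∀ p, orbR I σ g p = Ψ (expoMap K (glue p)) := fun p => by
    rw [← norm_orbitFun_ofReal, ← prod_placeFun, norm_prod]
  have hind : ∀ p : ℝ × (RestPlace K → ℝ), ({p : ℝ × (RestPlace K → ℝ) | 0 < p.1}).indicator
      (orbR I σ g) p = Q.indicator Ψ (expoMap K (glue p)) := fun p => by
    have hmem : expoMap K (glue p) ∈ Q ↔ 0 < p.1 := by
      show 0 < ∑ w, (mult w : ℝ) * expoMap K (glue p) w ↔ _
      simp only [expoMap_glue, sum_mult_expo]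
    by_cases hp : 0 < p.1
    · rw [indicator_of_mem (show p ∈ {p : ℝ × (RestPlace K → ℝ) | 0 < p.1} from hp),
        indicator_of_mem (hmem.2 hp), hΨ]
    · rw [indicator_of_notMem (show p ∉ {p : ℝ × (RestPlace K → ℝ) | 0 < p.1} from hp),
        indicator_of_notMem (fun h => hp (hmem.1 h))]
  have hΨi : Integrable Ψ :=
    Integrable.fintype_prod fun w => (integral_placeFun I (σ := (σ : ℂ)) (by simpa using hσ) hg0 w).1.norm
  have hΨQ : Integrable (Q.indicator Ψ) := hΨi.indicator hQ
  have hmeas : Measurable (expoMap K) := (expoMap K).continuous_of_finiteDimensional.measurable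
  have hmap := Measure.map_linearMap_addHaar_eq_smul_addHaar
    (volume : Measure (InfinitePlace K → ℝ)) (det_expoMap_ne_zero K)
  have hval : ∫ p, ({p : ℝ × (RestPlace K → ℝ) | 0 < p.1}).indicator (orbR I σ g) p =
      |LinearMap.det (expoMap K)|⁻¹ * ∫ u, Q.indicator Ψ u := by
    rw [show (fun p => ({p : ℝ × (RestPlace K → ℝ) | 0 < p.1}).indicator (orbR I σ g) p) =
      fun p => (Q.indicator Ψ ∘ expoMap K) (glue p) from funext hind,
      measurePreserving_glue.integral_comp glue.measurableEmbedding]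
    show ∫ u, Q.indicator Ψ (expoMap K u) = _
    rw [← integral_map hmeas.aemeasurable (by rw [hmap]; exact hΨQ.aestronglyMeasurable.smul_measure _),
      hmap, integral_smul_measure, ENNReal.toReal_ofReal (abs_nonneg _), abs_inv, smul_eq_mul]
  rw [hval, div_eq_inv_mul]
  refine mul_le_mul_of_nonneg_left ?_ (inv_nonneg.2 (abs_nonneg _))
  set low : InfinitePlace K → ℝ → ℝ := fun w => (Ioc (a w) (a w + 1)).indicator fun _ => c w
  have hlow : ∫ u : InfinitePlace K → ℝ, ∏ w, low w (u w) =
      |((discr K : ℤ) : ℝ)| ^ σ * Real.exp (-(π * Real.exp 1 * finrank ℚ K)) := by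
    rw [integral_fintype_prod_volume_eq_prod]
    have h1 : ∀ w, ∫ v, low w v = c w := fun w => by
      rw [integral_indicator measurableSet_Ioc, setIntegral_const, Real.volume_real_Ioc,
        add_sub_cancel_left, max_eq_left zero_le_one, one_smul]
    simp only [h1, c, ← Real.exp_sum, Finset.sum_add_distrib, ← Finset.mul_sum, hsum,
      Finset.sum_neg_distrib, ← Nat.cast_sum, sum_mult_eq]
    rw [Real.exp_add, Real.rpow_def_of_pos absDiscr_pos, mul_comm σ]
  rw [← hlow]
  refine integral_mono (Integrable.fintype_prod fun w =>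
    (integrableOn_const (C := c w) measure_Ioc_lt_top.ne).integrable_indicator measurableSet_Ioc)
    hΨQ fun u => ?_
  by_cases hu : ∀ w, u w ∈ Ioc (a w) (a w + 1)
  · have huQ : u ∈ Q := by
      show 0 < ∑ w, (mult w : ℝ) * u w
      refine lt_of_le_of_lt (b := ∑ w, (mult w : ℝ) * a w) ?_ ?_
      · rw [hsum]
        refine Real.log_nonneg ?_
        have h : 1 ≤ |discr K| := Int.one_le_abs (discr_ne_zero K)
        exact_mod_cast h
      · exact Finset.sum_lt_sum_of_nonempty Finset.univ_nonempty fun w _ =>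
          mul_lt_mul_of_pos_left (hu w).1 (Nat.cast_pos.2 mult_pos)
    rw [indicator_of_mem huQ]
    refine Finset.prod_le_prod (fun w _ => indicator_nonneg (fun _ _ => (Real.exp_pos _).le) _)
      fun w _ => ?_
    have hm : (0 : ℝ) < mult w := Nat.cast_pos.2 mult_pos
    have hca : 0 < scale I * w g ^ 2 := mul_pos (scale_pos I) (pow_pos (pos_iff.2 hg0) 2)
    simp only [low, indicator_of_mem (hu w), c]
    rw [placeFun, norm_mul, Complex.norm_exp, Complex.norm_real,
      Real.norm_of_nonneg (Real.exp_pos _).le, ← Real.exp_add]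
    refine Real.exp_le_exp.2 (add_le_add ?_ ?_)
    · simp only [Complex.mul_re, Complex.mul_im, Complex.natCast_re, Complex.natCast_im,
        Complex.ofReal_re, Complex.ofReal_im, mul_zero, zero_mul, sub_zero, add_zero]
      nlinarith [mul_nonneg (mul_nonneg hσ.le hm.le) (sub_nonneg.2 (hu w).1.le)]
    · rw [neg_le_neg_iff]
      have he : scale I * w g ^ 2 * Real.exp (u w) ≤ Real.exp 1 := by
        have h := Real.exp_le_exp.2 (hu w).2
        rw [ha, Real.exp_add, Real.exp_neg, Real.exp_log hca] at h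
        calc scale I * w g ^ 2 * Real.exp (u w)
            ≤ scale I * w g ^ 2 * ((scale I * w g ^ 2)⁻¹ * Real.exp 1) :=
              mul_le_mul_of_nonneg_left h hca.le
          _ = Real.exp 1 := mul_inv_cancel_left₀ hca.ne' _
      calc π * mult w * scale I * w g ^ 2 * Real.exp (u w)
          = π * mult w * (scale I * w g ^ 2 * Real.exp (u w)) := by ring
        _ ≤ π * mult w * Real.exp 1 := mul_le_mul_of_nonneg_left he (by positivity)
        _ = π * Real.exp 1 * mult w := by ring
  · push Not at hu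
    obtain ⟨w, hw⟩ := hu
    have h0 : ∏ w, low w (u w) = 0 :=
      Finset.prod_eq_zero (Finset.mem_univ w) (indicator_of_notMem hw _)
    rw [h0]
    exact indicator_nonneg (fun v _ => Finset.prod_nonneg fun w _ => norm_nonneg _) _

/-- **The lower bound.** -/
theorem classXiR_one_ge {s : ℝ} (hs : 0 < s) :
    |((discr K : ℤ) : ℝ)| ^ (s / 2) * Real.exp (-(π * Real.exp 1 * finrank ℚ K)) /
        Units.torsionOrder K ≤ classXiR (1 : ClassGroup (𝓞 K)) s := by
  set J := Classical.choose (ClassGroup.mk0_surjective (R := 𝓞 K) (1 : ClassGroup (𝓞 K))⁻¹)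
  have hJ : ClassGroup.mk0 J = 1 := by
    rw [Classical.choose_spec (ClassGroup.mk0_surjective (R := 𝓞 K) (1 : ClassGroup (𝓞 K))⁻¹), inv_one]
  obtain ⟨g, hg⟩ := (ClassGroup.mk0_eq_one_iff (SetLike.coe_mem J)).1 hJ
  have hgK : (g : K) ≠ 0 := RingOfIntegers.coe_ne_zero_iff.2 fun h =>
    nonZeroDivisors.coe_ne_zero J (hg.trans (by rw [h]; simp))
  set I := repIdeal K (1 : ClassGroup (𝓞 K))
  have hmem : (g : K) ∈ (I : Set K) := by
    show (g : K) ∈ ((J : Ideal (𝓞 K)) : FractionalIdeal (𝓞 K)⁰ K)
    refine FractionalIdeal.mem_coeIdeal_of_mem (𝓞 K)⁰ ?_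
    rw [hg]; exact Submodule.mem_span_singleton_self g
  have hr : ratio I (g : K) = 1 := by
    have hN : normR I = (Ideal.absNorm (J : Ideal (𝓞 K)) : ℝ) := by
      show ((FractionalIdeal.absNorm ((J : Ideal (𝓞 K)) : FractionalIdeal (𝓞 K)⁰ K) : ℚ) : ℝ) = _
      rw [FractionalIdeal.coeIdeal_absNorm, Rat.cast_natCast]
    rw [ratio, hN, div_eq_one_iff_eq (by rw [← hN]; exact (normR_pos I).ne'), hg,
      Ideal.submodule_span_eq, Ideal.absNorm_span_singleton, Nat.cast_natAbs, ← Algebra.coe_norm_int]
    push_cast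
    rfl
  have h := (orbit_lower I (half_pos hs) hgK hr).trans (orbit_le_integral_phi I (half_pos hs) hmem hgK)
  have hdet : 0 < |LinearMap.det (expoMap K)| := abs_pos.2 (det_expoMap_ne_zero K)
  refine le_trans ?_ (mul_le_mul_of_nonneg_left h normConst_pos.le)
  set V := |((discr K : ℤ) : ℝ)| ^ (s / 2) * Real.exp (-(π * Real.exp 1 * finrank ℚ K))
  have hV : 0 ≤ V := mul_nonneg (Real.rpow_nonneg (abs_nonneg _) _) (Real.exp_pos _).le
  have hR := Units.regulator_pos K
  have hw : (0 : ℝ) < Units.torsionOrder K := Nat.cast_pos.2 (Units.torsionOrder_pos K)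
  rw [abs_det_expoMap, normConst, jac,
    show 2 ^ (nrRealPlaces K + nrComplexPlaces K) * Units.regulator K / 2 / Units.torsionOrder K *
      (V / (2 ^ nrRealPlaces K * Units.regulator K / 2)) =
      2 ^ nrComplexPlaces K * V / Units.torsionOrder K by rw [pow_add]; field_simp]
  exact div_le_div_of_nonneg_right (le_mul_of_one_le_left hV (one_le_pow₀ one_le_two)) hw.le

end FA.HeckeBS
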