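import Fermat.Agent.HeckeBS.Growth
import Fermat.Agent.HeckeBS.GammaBounds
import Fermat.Agent.HeckeBS.Residue
import Fermat.Agent.Root.SummaryZetaDivisibility

/-!
# The completed quotient of a Galois extension

For `M/K` Galois the quotient of `xiFun M` by `xiFun K` is entire, so its value at `1`, the
quotient of the two `h 2^r R / w`, is at most `C(n, b) (|d_M|/|d_K|)^(b/2)` for every `b > 1`;
and zeros of `xiFun K` are zeros of `xiFun M`.
-/

set_option autoImplicit false
set_option linter.style.haveILetI false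

noncomputable section

open NumberField InfinitePlace Module Complex Filter Topology Set
open scoped Real Classical

namespace FA.HeckeBS

open FA.HeckeFE

universe u v

/-- Cancellation of an entire function that is not identically zero. -/
theorem eq_of_mul_eq_mul {P g₁ g₂ : ℂ → ℂ} (hP : Differentiable ℂ P) (hP0 : ∃ x, P x ≠ 0) {z : ℂ}
    (h₁ : ContinuousAt g₁ z) (h₂ : ContinuousAt g₂ z)
    (h : ∀ᶠ w in 𝓝 z, g₁ w * P w = g₂ w * P w) : g₁ z = g₂ z := by
  obtain ⟨x, hx⟩ := hP0
  have hne : ∀ᶠ w in 𝓝[≠] z, P w ≠ 0 := by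
    rcases (hP.analyticAt z).eventually_eq_zero_or_eventually_ne_zero with h0 | h0
    · exact absurd ((analyticOnNhd_univ_iff_differentiable.mpr hP).eqOn_zero_of_preconnected_of_eventuallyEq_zero
        isPreconnected_univ (mem_univ z) h0 (mem_univ x)) hx
    · exact h0
  have heq : g₁ =ᶠ[𝓝[≠] z] g₂ := by
    filter_upwards [hne, h.filter_mono nhdsWithin_le_nhds] with w hw hw'
    exact mul_right_cancel₀ hw hw'
  exact tendsto_nhds_unique ((h₁.tendsto.mono_left nhdsWithin_le_nhds).congr' heq)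
    (h₂.tendsto.mono_left nhdsWithin_le_nhds)

theorem places_le (K : Type u) [Field K] [NumberField K] (M : Type v) [Field M] [NumberField M]
    [Algebra K M] :
    nrRealPlaces K + nrComplexPlaces K ≤ nrRealPlaces M + nrComplexPlaces M ∧
      nrComplexPlaces K ≤ nrComplexPlaces M := by
  haveI : Algebra.IsAlgebraic K M :=
    haveI : FiniteDimensional K M := Module.Finite.of_restrictScalars_finite ℚ K M
    Algebra.IsAlgebraic.of_finite K M
  have hsurj : Function.Surjective fun w : InfinitePlace M => w.comap (algebraMap K M) :=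
    comap_surjective
  constructor
  · rw [← card_eq_nrRealPlaces_add_nrComplexPlaces, ← card_eq_nrRealPlaces_add_nrComplexPlaces]
    exact Fintype.card_le_of_surjective _ hsurj
  · choose f hf using hsurj
    refine Fintype.card_le_of_injective
      (fun w : {w : InfinitePlace K // w.IsComplex} => (⟨f w.1, not_isReal_iff_isComplex.1 fun h =>
        not_isReal_iff_isComplex.2 w.2 (hf w.1 ▸ h.comap (algebraMap K M))⟩ :
          {w : InfinitePlace M // w.IsComplex})) ?_
    intro a b h
    have h' : f a.1 = f b.1 := congrArg Subtype.val h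
    refine Subtype.ext ?_
    rw [← hf a.1, ← hf b.1]
    exact congrArg (fun w : InfinitePlace M => w.comap (algebraMap K M)) h'

theorem norm_gamFac_two_add_ge (K : Type u) [Field K] [NumberField K] (t : ℝ) :
    ((2 * π ^ 2)⁻¹) ^ (2 * finrank ℚ K) * Real.exp (-(2 * finrank ℚ K * π * |t|)) ≤
      ‖gamFac K (2 + t * I)‖ := by
  set c := (2 * π ^ 2)⁻¹ * Real.exp (-(π * |t|))
  have hc0 : 0 ≤ c := by positivity
  have hc1 : c ≤ 1 := by
    refine mul_le_one₀ (inv_le_one_of_one_le₀ ?_) (Real.exp_pos _).le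
      (Real.exp_le_one_iff.2 (neg_nonpos.2 (by positivity)))
    nlinarith [Real.pi_gt_three]
  have hR : c ≤ ‖Gammaℝ (2 + t * I)‖ := by
    refine le_trans (mul_le_mul_of_nonneg_right ?_ (Real.exp_pos _).le) (norm_Gammaℝ_two_add_ge t)
    exact inv_anti₀ Real.pi_pos (by nlinarith [Real.pi_gt_three])
  have hC : c ≤ ‖Gammaℂ (2 + t * I)‖ := norm_Gammaℂ_two_add_ge t
  have hd : (1 : ℝ) ≤ ((discr K).natAbs : ℕ) :=
    Nat.one_le_cast.2 (Int.natAbs_pos.2 (discr_ne_zero K))
  have hn := places_le_finrank K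
  rw [show ((2 * π ^ 2)⁻¹) ^ (2 * finrank ℚ K) * Real.exp (-(2 * finrank ℚ K * π * |t|)) =
      c ^ (2 * finrank ℚ K) by
    simp only [c, mul_pow, ← Real.exp_nat_mul]; push_cast; ring_nf]
  rw [gamFac, norm_mul, norm_mul, norm_pow, norm_pow, ← ofReal_natCast,
    norm_cpow_eq_rpow_re_of_pos (zero_lt_one.trans_le hd),
    show (((2 : ℂ) + t * I) / 2).re = 1 by simp, Real.rpow_one]
  calc c ^ (2 * finrank ℚ K) ≤ c ^ (nrRealPlaces K + nrComplexPlaces K) :=
        pow_le_pow_of_le_one hc0 hc1 (by omega)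
    _ = c ^ nrRealPlaces K * c ^ nrComplexPlaces K := pow_add _ _ _
    _ ≤ ‖Gammaℝ (2 + t * I)‖ ^ nrRealPlaces K * ‖Gammaℂ (2 + t * I)‖ ^ nrComplexPlaces K :=
        mul_le_mul (pow_le_pow_left₀ hc0 hR _) (pow_le_pow_left₀ hc0 hC _) (by positivity) (by positivity)
    _ ≤ _ := le_mul_of_one_le_left (by positivity) hd

/-- The bound for the quotient on the line `re = b`. -/
def edgeConst (n : ℕ) (b : ℝ) : ℝ :=
  ((1 + π ^ (-b / 2) * Real.Gamma (b / 2)) *
    (1 + π ^ (-(b + 1) / 2) * Real.Gamma ((b + 1) / 2))) ^ n * Real.exp (2 * n * eulerConst b)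

theorem edgeConst_pos (n : ℕ) {b : ℝ} (hb : 1 < b) : 0 < edgeConst n b := by
  have h1 := Real.Gamma_pos_of_pos (show 0 < b / 2 by linarith)
  have h2 := Real.Gamma_pos_of_pos (show 0 < (b + 1) / 2 by linarith)
  unfold edgeConst
  positivity

/-- **The quotient of a Galois extension.** -/
theorem exists_completed_quotient (K : Type u) (M : Type v) [Field K] [NumberField K] [Field M]
    [NumberField M] [Algebra K M] [IsGalois K M] :
    ∃ f : ℂ → ℂ, Differentiable ℂ f ∧ (∀ z, f z * xiFun K z = xiFun M z) ∧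
      (∀ z, f (1 - z) = f z) ∧
      ∀ s : ℂ, 1 < s.re → ‖f s‖ ≤
        (|((discr M : ℤ) : ℝ)| / |((discr K : ℤ) : ℝ)|) ^ (s.re / 2) *
          edgeConst (finrank ℚ M) s.re := by
  obtain ⟨F, hF, hFz, -⟩ := FA.Summary.aramata_brauer K M
  obtain ⟨hr, hr2⟩ := places_le K M
  set α := nrRealPlaces M + nrComplexPlaces M - (nrRealPlaces K + nrComplexPlaces K)
  set β := nrComplexPlaces M - nrComplexPlaces K
  have hdK : (0 : ℝ) < ((discr K).natAbs : ℕ) := Nat.cast_pos.2 (Int.natAbs_pos.2 (discr_ne_zero K))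
  have hdM : (0 : ℝ) < ((discr M).natAbs : ℕ) := Nat.cast_pos.2 (Int.natAbs_pos.2 (discr_ne_zero M))
  set q : ℝ := (((discr M).natAbs : ℕ) : ℝ) / (((discr K).natAbs : ℕ) : ℝ) with hq
  have hq0 : 0 < q := div_pos hdM hdK
  set f₀ : ℂ → ℂ := fun s => (q : ℂ) ^ (s / 2) * (Gammaℝ s ^ α * Gammaℝ (s + 1) ^ β) * F s with hf₀
  set H := {s : ℂ | 0 < s.re}
  have hHo : IsOpen H := isOpen_lt continuous_const continuous_re
  have hdiff : DifferentiableOn ℂ f₀ H := fun s hs => by
    have hs' : 0 < s.re := hs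
    refine DifferentiableAt.differentiableWithinAt ?_
    have hG : ∀ a : ℂ, 0 < a.re → DifferentiableAt ℂ Gammaℝ a := fun a ha =>
      ((differentiable_Gammaℝ_inv a).inv (inv_ne_zero (Gammaℝ_ne_zero_of_re_pos ha))).congr_of_eventuallyEq
        (Eventually.of_forall fun x => (inv_inv (Gammaℝ x)).symm)
    refine ((DifferentiableAt.const_cpow (differentiableAt_id.div_const 2)
      (Or.inl (ofReal_ne_zero.2 hq0.ne'))).mul (((hG s hs').pow α).mul (DifferentiableAt.pow ?_ β))).mul (hF s)
    exact (hG (s + 1) (by simp only [add_re, one_re]; linarith)).comp s (differentiableAt_id.add_const 1)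
  -- on `1 < re s`
  have hgam : ∀ s : ℂ, (q : ℂ) ^ (s / 2) * (Gammaℝ s ^ α * Gammaℝ (s + 1) ^ β) * gamFac K s =
      gamFac M s := fun s => by
    have hqd : (q : ℂ) ^ (s / 2) * (((discr K).natAbs : ℕ) : ℂ) ^ (s / 2) =
        (((discr M).natAbs : ℕ) : ℂ) ^ (s / 2) := by
      rw [← ofReal_natCast, ← ofReal_natCast, ← mul_cpow_ofReal_nonneg hq0.le hdK.le, ← ofReal_mul,
        hq, div_mul_cancel₀ _ hdK.ne']
    rw [gamFac, gamFac, ← hqd, ← Gammaℝ_mul_Gammaℝ_add_one, mul_pow, mul_pow,
      ← mul_assoc (Gammaℝ s ^ nrRealPlaces K), ← mul_assoc (Gammaℝ s ^ nrRealPlaces M), ← pow_add,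
      ← pow_add,
      show nrRealPlaces M + nrComplexPlaces M = nrRealPlaces K + nrComplexPlaces K + α by omega,
      show nrComplexPlaces M = nrComplexPlaces K + β by omega, pow_add, pow_add]
    ring
  have hhalf : ∀ s : ℂ, 1 < s.re → f₀ s * xiFun K s = xiFun M s := fun s hs => by
    rw [xiFun_half K hs, xiFun_half M hs, hFz s hs, ← hgam s, hf₀]
    ring
  have heq : EqOn (fun s => f₀ s * xiFun K s) (xiFun M) H := by
    refine AnalyticOnNhd.eqOn_of_preconnected_of_eventuallyEq
      ((hdiff.mul (differentiable_xiFun K).differentiableOn).analyticOnNhd hHo)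
      ((differentiable_xiFun M).differentiableOn.analyticOnNhd hHo)
      (convex_halfSpace_re_gt 0).isPreconnected (z₀ := 2) (show (0 : ℝ) < (2 : ℂ).re by norm_num) ?_
    filter_upwards [(isOpen_lt continuous_const continuous_re).mem_nhds
      (show (1 : ℝ) < (2 : ℂ).re by norm_num)] with s hs
    exact hhalf s hs
  have hP0 : ∃ x, xiFun K x ≠ 0 :=
    ⟨1, by rw [xiFun_one]; exact ofReal_ne_zero.2 (polarR_pos K).ne'⟩
  have hcont : ∀ s ∈ H, ContinuousAt f₀ s := fun s hs =>
    (hdiff.differentiableAt (hHo.mem_nhds hs)).continuousAt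
  have hsym : ∀ s : ℂ, 0 < s.re → s.re < 1 → f₀ (1 - s) = f₀ s := fun s h0 h1 => by
    refine eq_of_mul_eq_mul (g₁ := fun w => f₀ (1 - w)) (differentiable_xiFun K) hP0 ?_ (hcont s h0) ?_
    · exact (hcont (1 - s) (show 0 < (1 - s).re by simp only [sub_re, one_re]; linarith)).comp
        (f := fun s : ℂ => 1 - s) (continuous_const.sub continuous_id).continuousAt
    · filter_upwards [hHo.mem_nhds h0, (isOpen_lt continuous_re continuous_const).mem_nhds h1] with w hw0 hw1
      have hw1' : w.re < 1 := hw1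
      have e1 : f₀ (1 - w) * xiFun K (1 - w) = xiFun M (1 - w) :=
        heq (show (0 : ℝ) < (1 - w).re by simp only [sub_re, one_re]; linarith)
      rw [xiFun_one_sub, xiFun_one_sub] at e1
      have e2 : f₀ w * xiFun K w = xiFun M w := heq hw0
      rw [e1, e2]
  set f : ℂ → ℂ := fun s => if 1 / 2 ≤ s.re then f₀ s else f₀ (1 - s) with hfdef
  have hf1 : ∀ s : ℂ, 0 < s.re → f s = f₀ s := fun s hs => by
    simp only [hfdef]
    split_ifs with h
    · rfl
    · exact hsym s hs (by linarith)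
  have hf2 : ∀ s : ℂ, s.re < 1 → f s = f₀ (1 - s) := fun s hs => by
    simp only [hfdef]
    split_ifs with h
    · exact (hsym s (by linarith) hs).symm
    · rfl
  refine ⟨f, fun s => ?_, fun z => ?_, fun z => ?_, fun s hs => ?_⟩
  · rcases lt_or_ge 0 s.re with h | h
    · refine (hdiff.differentiableAt (hHo.mem_nhds h)).congr_of_eventuallyEq ?_
      filter_upwards [hHo.mem_nhds h] with w hw
      exact hf1 w hw
    · have h' : (1 - s) ∈ H := show 0 < (1 - s).re by simp only [sub_re, one_re]; linarith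
      refine (DifferentiableAt.comp (g := f₀) s (hdiff.differentiableAt (hHo.mem_nhds h'))
        ((differentiableAt_const (1 : ℂ)).sub differentiableAt_id)).congr_of_eventuallyEq ?_
      filter_upwards [(isOpen_lt continuous_re continuous_const).mem_nhds
        (show s.re < 1 by linarith)] with w hw
      exact hf2 w hw
  · rcases lt_or_ge 0 z.re with h | h
    · rw [hf1 z h]; exact heq h
    · rw [hf2 z (by linarith), ← xiFun_one_sub K z, ← xiFun_one_sub M z]
      exact heq (show (0 : ℝ) < (1 - z).re by simp only [sub_re, one_re]; linarith)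
  · rcases lt_or_ge 0 z.re with h | h
    · rw [hf1 z h, hf2 (1 - z) (by simp only [sub_re, one_re]; linarith), sub_sub_cancel]
    · rw [hf2 z (by linarith), hf1 (1 - z) (by simp only [sub_re, one_re]; linarith)]
  · rw [hf1 s (by linarith)]
    have hqabs : q = |((discr M : ℤ) : ℝ)| / |((discr K : ℤ) : ℝ)| := by
      rw [hq, ← Int.cast_abs, ← Int.cast_abs, ← Int.natCast_natAbs, ← Int.natCast_natAbs,
        Int.cast_natCast, Int.cast_natCast]
    set gR := π ^ (-s.re / 2) * Real.Gamma (s.re / 2)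
    set gR1 := π ^ (-(s.re + 1) / 2) * Real.Gamma ((s.re + 1) / 2)
    have hgR : 0 ≤ gR :=
      mul_nonneg (Real.rpow_nonneg Real.pi_pos.le _) (Real.Gamma_pos_of_pos (by linarith)).le
    have hgR1 : 0 ≤ gR1 :=
      mul_nonneg (Real.rpow_nonneg Real.pi_pos.le _) (Real.Gamma_pos_of_pos (by linarith)).le
    have hnK : finrank ℚ K ≤ finrank ℚ M := by
      haveI : FiniteDimensional K M := Module.Finite.of_restrictScalars_finite ℚ K M
      rw [← Module.finrank_mul_finrank ℚ K M]
      exact Nat.le_mul_of_pos_right _ finrank_pos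
    have hαn : α ≤ finrank ℚ M := by have := places_le_finrank M; omega
    have hβn : β ≤ finrank ℚ M := by have := places_le_finrank M; omega
    have hG : ‖Gammaℝ s ^ α * Gammaℝ (s + 1) ^ β‖ ≤ ((1 + gR) * (1 + gR1)) ^ finrank ℚ M := by
      rw [norm_mul, norm_pow, norm_pow, mul_pow]
      refine mul_le_mul ?_ ?_ (pow_nonneg (norm_nonneg _) _) (by positivity)
      · exact (pow_le_pow_left₀ (norm_nonneg _) ((norm_Gammaℝ_le (by linarith)).trans
          (le_add_of_nonneg_left zero_le_one)) _).trans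
          (pow_le_pow_right₀ (le_add_of_nonneg_right hgR) hαn)
      · have h' := norm_Gammaℝ_le (s := s + 1) (by simp only [add_re, one_re]; linarith)
        simp only [add_re, one_re] at h'
        exact (pow_le_pow_left₀ (norm_nonneg _) (h'.trans (le_add_of_nonneg_left zero_le_one)) _).trans
          (pow_le_pow_right₀ (le_add_of_nonneg_right hgR1) hβn)
    have hFs : ‖F s‖ ≤ Real.exp (2 * finrank ℚ M * eulerConst s.re) := by
      obtain ⟨-, hM⟩ := norm_dedekindZeta_bounds (K := M) hs
      obtain ⟨hK, -⟩ := norm_dedekindZeta_bounds (K := K) hs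
      have hE : 0 ≤ eulerConst s.re :=
        mul_nonneg zero_le_two (tsum_nonneg fun m => Real.rpow_nonneg (Nat.cast_nonneg _) _)
      have hK0 : 0 < ‖dedekindZeta K s‖ := (Real.exp_pos _).trans_le hK
      rw [hFz s hs, norm_mul] at hM
      calc ‖F s‖ ≤ Real.exp (finrank ℚ M * eulerConst s.re) / ‖dedekindZeta K s‖ :=
            (le_div_iff₀ hK0).2 hM
        _ ≤ Real.exp (finrank ℚ M * eulerConst s.re) / Real.exp (-(finrank ℚ K * eulerConst s.re)) :=
            div_le_div_of_nonneg_left (Real.exp_pos _).le (Real.exp_pos _) hK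
        _ ≤ _ := by
            rw [← Real.exp_sub]
            refine Real.exp_le_exp.2 ?_
            have : (finrank ℚ K : ℝ) ≤ finrank ℚ M := Nat.cast_le.2 hnK
            nlinarith
    rw [hf₀, norm_mul, norm_mul, norm_cpow_eq_rpow_re_of_pos hq0, div_ofNat_re, ← hqabs, edgeConst,
      mul_assoc (q ^ (s.re / 2))]
    exact mul_le_mul_of_nonneg_left (mul_le_mul hG hFs (norm_nonneg _) (by positivity))
      (Real.rpow_nonneg hq0.le _)

variable (K : Type u) (M : Type v) [Field K] [NumberField K] [Field M] [NumberField M] [Algebra K M]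
  [IsGalois K M]

/-- **Zeros are inherited.** -/
theorem xiFun_eq_zero_of_galois {z : ℂ} (h : xiFun K z = 0) : xiFun M z = 0 := by
  obtain ⟨f, -, hf, -⟩ := exists_completed_quotient K M
  rw [← hf z, h, mul_zero]

/-- **The quotient at `1`.** -/
theorem polarR_le_mul {b : ℝ} (hb1 : 1 < b) (hb2 : b ≤ 2) :
    polarR M ≤ (|((discr M : ℤ) : ℝ)| / |((discr K : ℤ) : ℝ)|) ^ (b / 2) *
      edgeConst (finrank ℚ M) b * polarR K := by
  obtain ⟨f, hf, hmul, hsym, hedge⟩ := exists_completed_quotient K M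
  obtain ⟨CK, hCK, hBK⟩ := exists_xiFun_bound K (-4) 8
  obtain ⟨CM, hCM, hBM⟩ := exists_xiFun_bound M (-4) 8
  set C := CK + CM
  have hB : ∀ s : ℂ, s.re ∈ Icc (-4) 8 → ‖xiFun K s‖ ≤ C * (1 + |s.im|) ^ 2 := fun s hs =>
    (hBK s hs).trans (mul_le_mul_of_nonneg_right (by linarith) (by positivity))
  have hA : ∀ s : ℂ, s.re ∈ Icc (-4) 8 → ‖xiFun M s‖ ≤ C * (1 + |s.im|) ^ 2 := fun s hs =>
    (hBM s hs).trans (mul_le_mul_of_nonneg_right (by linarith) (by positivity))
  set n := finrank ℚ K
  have hlow : ∀ t : ℝ, ((2 * π ^ 2)⁻¹) ^ (2 * n) * Real.exp (-(n * eulerConst 2)) *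
      Real.exp (-(2 * n * π * |t|)) ≤ ‖xiFun K (2 + t * I)‖ := fun t => by
    have hre : ((2 : ℂ) + t * I).re = 2 := by simp
    have hre1 : ((2 : ℂ) + t * I - 1).re = 1 := by simp; norm_num
    have hz := (norm_dedekindZeta_bounds (K := K) (s := 2 + t * I) (by rw [hre]; norm_num)).1
    rw [hre] at hz
    rw [xiFun_half K (by rw [hre]; norm_num), norm_mul, norm_mul, norm_mul]
    have h1 : 1 ≤ ‖(2 : ℂ) + t * I‖ * ‖(2 : ℂ) + t * I - 1‖ := by
      refine one_le_mul_of_one_le_of_one_le ?_ ?_
      · exact le_trans (by rw [hre]; norm_num) (Complex.re_le_norm _)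
      · exact le_trans (by rw [hre1]) (Complex.re_le_norm _)
    refine le_trans ?_ (le_mul_of_one_le_left (by positivity) h1)
    rw [mul_right_comm]
    exact mul_le_mul (norm_gamFac_two_add_ge K t) hz (Real.exp_pos _).le (norm_nonneg _)
  have hPL := norm_quotient_le hf (differentiable_xiFun M) (differentiable_xiFun K) hmul
    (C := C) (by positivity) (c := ((2 * π ^ 2)⁻¹) ^ (2 * n) * Real.exp (-(n * eulerConst 2)))
    (by positivity) (D := 2 * n * π) (by positivity) hA hB hlow
    (a := 1 - b) (b := b) (M := (|((discr M : ℤ) : ℝ)| / |((discr K : ℤ) : ℝ)|) ^ (b / 2) *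
      edgeConst (finrank ℚ M) b) (by linarith) hb2 (by linarith)
    (fun s hs => by
      rw [← hsym s]
      have h := hedge (1 - s) (by simp only [sub_re, one_re, hs]; linarith)
      simp only [sub_re, one_re, hs, sub_sub_cancel] at h
      exact h)
    (fun s hs => by
      have h := hedge s (by rw [hs]; exact hb1)
      rwa [hs] at h)
    (z := 1) (by simp only [one_re]; linarith) (by simp only [one_re]; linarith)
  have h1 := congrArg norm (hmul 1)
  rw [xiFun_one, xiFun_one, norm_mul, norm_real, norm_real, Real.norm_of_nonneg (polarR_pos K).le,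
    Real.norm_of_nonneg (polarR_pos M).le] at h1
  rw [← h1]
  exact mul_le_mul_of_nonneg_right hPL (polarR_pos K).le

end FA.HeckeBS
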