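import Fermat.Agent.HeckeFE.Extension

/-!
# Positivity of the completed zeta function

`Λ₀` of the kernel pair is the Mellin transform of a non-negative function, so `classXi C` is
non-negative on the real axis and `|classXi C s| ≤ classXi C (re s)`. `xiFun K s` is the entire
function `s (s - 1) |d|^(s/2) Γℝ^r₁ Γℂ^r₂ ζ_K`, equal to `h 2^r R / w` at `1`.
-/

set_option autoImplicit false
set_option linter.style.haveILetI false

noncomputable section

open NumberField InfinitePlace MeasureTheory Set Complex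
open scoped Real nonZeroDivisors Classical

namespace FA.HeckeBS

open FA.HeckeFE

variable {K : Type*} [Field K] [NumberField K] (I : (FractionalIdeal (𝓞 K)⁰ K)ˣ)

theorem one_le_kern (τ : ℝ) : 1 ≤ kern I τ := by
  rw [← sub_nonneg, kern_sub_one]
  exact integral_nonneg fun z => tsum_nonneg fun x => (Real.exp_pos _).le

/-- The modified kernel. -/
def phi (τ : ℝ) : ℝ :=
  (Ioi 1).indicator (fun x => kern I x - 1) τ +
    (Ioo 0 1).indicator (fun x => kern I x - x ^ (-(1 / 2) : ℝ)) τ

theorem phi_nonneg (τ : ℝ) : 0 ≤ phi I τ := by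
  refine add_nonneg (indicator_nonneg (fun x _ => sub_nonneg.2 (one_le_kern I x)) _)
    (indicator_nonneg (fun x hx => ?_) _)
  have h := kern_one_div I (one_div_pos.2 hx.1)
  rw [one_div_one_div, one_div, Real.inv_rpow hx.1.le, ← Real.rpow_neg hx.1.le] at h
  rw [h, sub_nonneg]
  exact le_mul_of_one_le_right (Real.rpow_nonneg hx.1.le _) (one_le_kern _ _)

theorem f_modif_pair (τ : ℝ) : (pair I).f_modif τ = (phi I τ : ℂ) := by
  rw [WeakFEPair.f_modif, phi, Pi.add_apply, ofReal_add]
  congr 1 <;>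
  · rw [indicator_apply, indicator_apply]
    split_ifs with h <;> simp [pair]

theorem integrand_eq {σ : ℂ} {τ : ℝ} (hτ : 0 < τ) :
    ‖(τ : ℂ) ^ (σ - 1) • (pair I).f_modif τ‖ = τ ^ (σ.re - 1) * phi I τ := by
  rw [f_modif_pair, smul_eq_mul, norm_mul, norm_cpow_eq_rpow_re_of_pos hτ, norm_real,
    Real.norm_of_nonneg (phi_nonneg I τ), sub_re, one_re]

/-- `Λ₀` at a real point. -/
theorem pair_Λ₀_real (x : ℝ) :
    (pair I).Λ₀ x = ((∫ τ in Ioi (0 : ℝ), τ ^ (x - 1) * phi I τ : ℝ) : ℂ) := by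
  rw [WeakFEPair.Λ₀, mellin, ← integral_complex_ofReal]
  refine setIntegral_congr_fun measurableSet_Ioi fun τ hτ => ?_
  have hτ' : (0 : ℝ) < τ := hτ
  show (τ : ℂ) ^ ((x : ℂ) - 1) • (pair I).f_modif τ = _
  rw [f_modif_pair, smul_eq_mul, ofReal_mul, ofReal_cpow hτ'.le, ofReal_sub, ofReal_one]

theorem norm_pair_Λ₀_le (σ : ℂ) :
    ‖(pair I).Λ₀ σ‖ ≤ ∫ τ in Ioi (0 : ℝ), τ ^ (σ.re - 1) * phi I τ := by
  rw [WeakFEPair.Λ₀, mellin]
  refine (norm_integral_le_integral_norm _).trans (le_of_eq ?_)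
  exact setIntegral_congr_fun measurableSet_Ioi fun τ hτ => integrand_eq I hτ

variable (K) in
/-- The factor `jac / w`, as a real number. -/
def normConst : ℝ := jac K / (Units.torsionOrder K : ℝ)

theorem normConst_pos : 0 < normConst K :=
  div_pos jac_pos (Nat.cast_pos.2 (Units.torsionOrder_pos K))

/-- The real form of `classXi`. -/
def classXiR (C : ClassGroup (𝓞 K)) (x : ℝ) : ℝ :=
  normConst K * ∫ τ in Ioi (0 : ℝ), τ ^ (x / 2 - 1) * phi (repIdeal K C) τ

theorem classXi_ofReal (C : ClassGroup (𝓞 K)) (x : ℝ) : classXi C x = (classXiR C x : ℂ) := by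
  rw [classXi, show (x : ℂ) / 2 = ((x / 2 : ℝ) : ℂ) by push_cast; rfl, pair_Λ₀_real, classXiR,
    normConst]
  push_cast
  rfl

theorem classXiR_nonneg (C : ClassGroup (𝓞 K)) (x : ℝ) : 0 ≤ classXiR C x :=
  mul_nonneg normConst_pos.le (setIntegral_nonneg measurableSet_Ioi fun τ hτ =>
    mul_nonneg (Real.rpow_nonneg (le_of_lt hτ) _) (phi_nonneg _ τ))

theorem norm_classXi_le (C : ClassGroup (𝓞 K)) (s : ℂ) : ‖classXi C s‖ ≤ classXiR C s.re := by
  rw [classXi, classXiR, norm_mul, norm_div, norm_real, Complex.norm_natCast,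
    Real.norm_of_nonneg jac_pos.le, normConst, ← div_ofNat_re]
  exact mul_le_mul_of_nonneg_left (norm_pair_Λ₀_le _ _) normConst_pos.le

variable (K) in
/-- The real form of `zetaXi`. -/
def zetaXiR (x : ℝ) : ℝ := ∑ C : ClassGroup (𝓞 K), classXiR C x

theorem zetaXi_ofReal (x : ℝ) : zetaXi K x = (zetaXiR K x : ℂ) := by
  rw [zetaXi, zetaXiR, ofReal_sum]
  exact Finset.sum_congr rfl fun C _ => classXi_ofReal C x

theorem classXiR_le_zetaXiR (C : ClassGroup (𝓞 K)) (x : ℝ) : classXiR C x ≤ zetaXiR K x :=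
  Finset.single_le_sum (f := fun C => classXiR C x) (fun C _ => classXiR_nonneg C x)
    (Finset.mem_univ C)

theorem zetaXiR_nonneg (x : ℝ) : 0 ≤ zetaXiR K x :=
  Finset.sum_nonneg fun C _ => classXiR_nonneg C x

theorem norm_zetaXi_le (s : ℂ) : ‖zetaXi K s‖ ≤ zetaXiR K s.re :=
  (norm_sum_le _ _).trans (Finset.sum_le_sum fun C _ => norm_classXi_le C s)

theorem continuous_zetaXiR : Continuous (zetaXiR K) := by
  have h : zetaXiR K = fun x : ℝ => (zetaXi K x).re := funext fun x => by
    rw [zetaXi_ofReal, ofReal_re]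
  rw [h]
  exact continuous_re.comp (differentiable_zetaXi.continuous.comp continuous_ofReal)

variable (K)

/-- `h 2^r R / w`. -/
def polarR : ℝ := classNumber K * (2 * normConst K)

theorem polarR_eq : polarR K = 2 ^ (nrRealPlaces K + nrComplexPlaces K) *
    (classNumber K * Units.regulator K / Units.torsionOrder K) := by
  rw [polarR, normConst, jac]; ring

theorem polarR_pos : 0 < polarR K :=
  mul_pos (Nat.cast_pos.2 (classNumber_pos K)) (mul_pos two_pos normConst_pos)

theorem polarConst_ofReal : polarConst K = (polarR K : ℂ) := by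
  rw [polarConst, polarR, normConst]; push_cast; ring

/-- The entire completed zeta function. -/
def xiFun (s : ℂ) : ℂ := s * (s - 1) * zetaXi K s + polarConst K

theorem differentiable_xiFun : Differentiable ℂ (xiFun K) :=
  ((differentiable_id.mul (differentiable_id.sub_const 1)).mul differentiable_zetaXi).add_const _

theorem xiFun_one_sub (s : ℂ) : xiFun K (1 - s) = xiFun K s := by
  rw [xiFun, xiFun, zetaXi_one_sub]; ring

theorem xiFun_one : xiFun K 1 = (polarR K : ℂ) := by
  rw [xiFun, sub_self, mul_zero, zero_mul, zero_add, polarConst_ofReal]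

theorem xiFun_half {s : ℂ} (hs : 1 < s.re) :
    xiFun K s = s * (s - 1) * (gamFac K s * dedekindZeta K s) := by
  have h0 : s ≠ 0 := fun h => by simp [h] at hs; linarith
  have h1 : 1 - s ≠ 0 := sub_ne_zero.2 fun h => by simp [← h] at hs
  rw [zetaXi_half hs, xiFun]
  field_simp
  ring

/-- The real form of `xiFun`. -/
def xiR (x : ℝ) : ℝ := x * (x - 1) * zetaXiR K x + polarR K

theorem xiFun_ofReal (x : ℝ) : xiFun K x = (xiR K x : ℂ) := by
  rw [xiFun, xiR, zetaXi_ofReal, polarConst_ofReal]; push_cast; ring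

/-- Without real zeros between `x` and `1` the function is positive at `x`. -/
theorem xiR_pos_of_no_zero {x : ℝ} (hx : x ≤ 1)
    (h : ∀ y ∈ Icc x 1, xiFun K (y : ℂ) ≠ 0) : 0 < xiR K x := by
  by_contra hneg
  push Not at hneg
  have hc : Continuous (xiR K) := by
    unfold xiR
    exact ((continuous_id.mul (continuous_id.sub continuous_const)).mul continuous_zetaXiR).add
      continuous_const
  have h1 : (0 : ℝ) ≤ xiR K 1 := by simp [xiR, (polarR_pos K).le]
  obtain ⟨y, hy, hy0⟩ := intermediate_value_Icc hx hc.continuousOn ⟨hneg, h1⟩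
  exact h y hy (by rw [xiFun_ofReal, hy0, ofReal_zero])

/-- Polynomial growth in vertical strips. -/
theorem exists_xiFun_bound (a b : ℝ) :
    ∃ C > 0, ∀ s : ℂ, s.re ∈ Icc a b → ‖xiFun K s‖ ≤ C * (1 + |s.im|) ^ 2 := by
  obtain ⟨M, hM⟩ := (isCompact_Icc (a := a) (b := b)).exists_bound_of_continuousOn
    (continuous_zetaXiR (K := K)).continuousOn
  set B := |a| + |b| + 1
  refine ⟨(B + 1) ^ 2 * (max M 0) + polarR K, by have := polarR_pos K; positivity, fun s hs => ?_⟩
  have hre : |s.re| ≤ B - 1 := by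
    rw [abs_le]
    exact ⟨by linarith [neg_abs_le a, abs_nonneg b, hs.1], by linarith [le_abs_self b, abs_nonneg a, hs.2]⟩
  have hs1 : ‖s‖ ≤ (B + 1) * (1 + |s.im|) := by
    refine (Complex.norm_le_abs_re_add_abs_im s).trans ?_
    nlinarith [abs_nonneg s.im, abs_nonneg s.re]
  have hs2 : ‖s - 1‖ ≤ (B + 1) * (1 + |s.im|) := by
    refine (Complex.norm_le_abs_re_add_abs_im _).trans ?_
    simp only [sub_re, one_re, sub_im, one_im, sub_zero]
    have : |s.re - 1| ≤ B := by rw [abs_le]; constructor <;> linarith [abs_le.1 hre]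
    nlinarith [abs_nonneg s.im, abs_nonneg a, abs_nonneg b]
  have hX : ‖zetaXi K s‖ ≤ max M 0 :=
    (norm_zetaXi_le s).trans ((le_abs_self _).trans ((hM _ hs).trans (le_max_left _ _)))
  rw [xiFun]
  refine (norm_add_le _ _).trans ?_
  rw [norm_mul, norm_mul, polarConst_ofReal, norm_real, Real.norm_of_nonneg (polarR_pos K).le, add_mul,
    show (B + 1) ^ 2 * max M 0 * (1 + |s.im|) ^ 2 =
      (B + 1) * (1 + |s.im|) * ((B + 1) * (1 + |s.im|)) * max M 0 by ring]
  refine add_le_add ?_ ?_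
  · exact mul_le_mul (mul_le_mul hs1 hs2 (norm_nonneg _) (by positivity)) hX (norm_nonneg _)
      (by positivity)
  · exact le_mul_of_one_le_right (polarR_pos K).le (one_le_pow₀ (by linarith [abs_nonneg s.im]))

end FA.HeckeBS
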